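import Mathlib

/-!
# Traces determine absolutely irreducible two-dimensional representations (Carayol)

Pure algebra: for a representation `r` over a local ring lifting `rbar` whose image spans all
matrices, equal traces force conjugate representations, and the representation can be realised
over any suitable subring containing the traces.
-/

set_option autoImplicit false

noncomputable section

open Matrix

namespace Fermat.Agent.Deform

local notation "M₂(" A ")" => Matrix (Fin 2) (Fin 2) A

/-- The image of `rbar` spans all matrices, in trace-pairing form. -/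
def TraceNondeg {G : Type} [Monoid G] {k : Type} [Field k] (rbar : G →* M₂(k)) : Prop :=
  ∀ T : M₂(k), (∀ g, (T * rbar g).trace = 0) → T = 0

section Burnside

variable {G : Type} [Monoid G] {K : Type} [Field K]

lemma trace_mul_sum_smul {ι : Type} [Fintype ι] {A : Type} [CommRing A] (T : M₂(A)) (c : ι → A)
    (X : ι → M₂(A)) : (T * ∑ i, c i • X i).trace = ∑ i, c i * (T * X i).trace := by
  simp [Finset.mul_sum, Matrix.trace_sum, Matrix.trace_smul]

/-- Burnside's theorem in dimension two. -/
lemma traceNondeg_of_isAlgClosed [IsAlgClosed K] (r : G →* M₂(K))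
    (hirr : ∀ v w : Fin 2 → K, v ≠ 0 → w ≠ 0 → ∃ g, w ⬝ᵥ (r g *ᵥ v) ≠ 0) :
    TraceNondeg r := by
  intro T hT
  have hT' : ∀ X ∈ Submodule.span K (Set.range r), (T * X).trace = 0 := by
    intro X hX
    induction hX using Submodule.span_induction with
    | mem x h => obtain ⟨g, rfl⟩ := h; exact hT g
    | zero => simp
    | add x y _ _ hx hy => rw [mul_add, Matrix.trace_add, hx, hy, add_zero]
    | smul c x _ hx => rw [mul_smul_comm, Matrix.trace_smul, hx, smul_zero]
  set S := Submodule.span K (Set.range r) with hS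
  have hmem : ∀ g, r g ∈ S := fun g => Submodule.subset_span ⟨g, rfl⟩
  have h1 : (1 : M₂(K)) ∈ S := by simpa using hmem 1
  have hmul : ∀ g X, X ∈ S → r g * X ∈ S := by
    intro g X hX
    induction hX using Submodule.span_induction with
    | mem x h => obtain ⟨g', rfl⟩ := h; rw [← map_mul]; exact hmem _
    | zero => simp
    | add x y _ _ hx hy => rw [mul_add]; exact S.add_mem hx hy
    | smul c x _ hx => rw [mul_smul_comm]; exact S.smul_mem _ hx
  have hmul' : ∀ g X, X ∈ S → X * r g ∈ S := by
    intro g X hX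
    induction hX using Submodule.span_induction with
    | mem x h => obtain ⟨g', rfl⟩ := h; rw [← map_mul]; exact hmem _
    | zero => simp
    | add x y _ _ hx hy => rw [add_mul]; exact S.add_mem hx hy
    | smul c x _ hx => rw [smul_mul_assoc]; exact S.smul_mem _ hx
  -- some `r g` is not scalar
  obtain ⟨b, hbS, hbns⟩ : ∃ b ∈ S, ∀ c : K, b ≠ c • (1 : M₂(K)) := by
    by_contra hcon
    push Not at hcon
    obtain ⟨g, hg⟩ := hirr ![1, 0] ![0, 1] (fun h => by simpa using congrFun h 0)
      (fun h => by simpa using congrFun h 1)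
    obtain ⟨c, hc⟩ := hcon _ (hmem g)
    simp [hc, Matrix.smul_mulVec, dotProduct, Fin.sum_univ_two] at hg
  obtain ⟨lam, hlam⟩ := Module.End.exists_eigenvalue (Matrix.toLin' b)
  set N := b - lam • (1 : M₂(K)) with hN
  have hNS : N ∈ S := S.sub_mem hbS (S.smul_mem _ h1)
  have hN0 : N ≠ 0 := fun h => hbns lam (sub_eq_zero.mp h)
  have hdet : N.det = 0 := by
    obtain ⟨v, hv, hv0⟩ := hlam.exists_hasEigenvector
    rw [← Matrix.exists_mulVec_eq_zero_iff]
    refine ⟨v, hv0, ?_⟩
    have : b *ᵥ v = lam • v := by simpa [Module.End.mem_eigenspace_iff] using hv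
    simp [hN, Matrix.sub_mulVec, this, Matrix.smul_mulVec]
  obtain ⟨p, q, hpq⟩ : ∃ p q, N p q ≠ 0 := by
    by_contra hcon
    push Not at hcon
    exact hN0 (Matrix.ext fun i j => hcon i j)
  have hrank : ∀ i j, N i q * N p j = N i j * N p q := by
    rw [Matrix.det_fin_two] at hdet
    intro i j
    fin_cases i <;> fin_cases j <;> fin_cases p <;> fin_cases q <;> simp <;>
      first
        | ring1
        | linear_combination hdet
        | linear_combination -hdet
  set u : Fin 2 → K := fun i => N i q with hu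
  set φ : Fin 2 → K := fun j => N p j with hφ
  have hu0 : u ≠ 0 := fun h => hpq (congrFun h p)
  have hφ0 : φ ≠ 0 := fun h => hpq (congrFun h q)
  -- every trace pairing with a rank-one element of `S` vanishes
  have key : ∀ g g', φ ⬝ᵥ (r g' *ᵥ (T *ᵥ (r g *ᵥ u))) = 0 := by
    intro g g'
    have h := hT' (r g * N * r g') (hmul' _ _ (hmul _ _ hNS))
    have hN' : N p q • N = Matrix.vecMulVec u φ := by
      ext i j
      rw [Matrix.smul_apply, Matrix.vecMulVec_apply, smul_eq_mul, hu, hφ]
      dsimp only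
      rw [hrank i j, mul_comm]
    have h2 : (T * (r g * Matrix.vecMulVec u φ * r g')).trace = 0 := by
      rw [← hN', Matrix.mul_smul, Matrix.smul_mul, Matrix.mul_smul, Matrix.trace_smul, h,
        smul_zero]
    rw [Matrix.mul_vecMulVec, Matrix.vecMulVec_mul, Matrix.mul_vecMulVec,
      Matrix.trace_vecMulVec] at h2
    rw [Matrix.dotProduct_mulVec, dotProduct_comm]
    exact h2
  have key2 : ∀ g, T *ᵥ (r g *ᵥ u) = 0 := by
    intro g
    by_contra hne
    obtain ⟨g', hg'⟩ := hirr _ φ hne hφ0
    exact hg' (key g g')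
  ext i j
  have hrow : T i = 0 := by
    by_contra hne
    obtain ⟨g, hg⟩ := hirr u (T i) hu0 hne
    exact hg (congrFun (key2 g) i)
  rw [hrow]; rfl

lemma TraceNondeg.of_map {L : Type} [Field L] (f : K →+* L) (r : G →* M₂(K))
    (h : TraceNondeg ((f.mapMatrix.toMonoidHom).comp r)) : TraceNondeg r := by
  intro T hT
  have := h (T.map f) fun g => by
    show (f.mapMatrix T * f.mapMatrix (r g)).trace = 0
    rw [← map_mul]
    show ((T * r g).map f).trace = 0
    have e : ((T * r g).map f).trace = f (T * r g).trace := by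
      rw [Matrix.trace, Matrix.trace, map_sum]
      rfl
    rw [e, hT g, map_zero]
  ext i j
  exact f.injective (by simpa using congrFun (congrFun this i) j)

end Burnside

/-- Index type for four matrices. -/
abbrev FrameIdx := Fin 2 × Fin 2

/-- The coordinates of a family of four matrices. -/
def coordMat {A : Type} [CommRing A] (X : FrameIdx → M₂(A)) : Matrix FrameIdx FrameIdx A :=
  Matrix.of fun p s => X s p.1 p.2

/-- The trace-pairing matrix of a family of four matrices. -/
def gramMat {A : Type} [CommRing A] (X : FrameIdx → M₂(A)) : Matrix FrameIdx FrameIdx A :=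
  Matrix.of fun s t => (X s * X t).trace

lemma coordMat_mulVec {A : Type} [CommRing A] (X : FrameIdx → M₂(A)) (c : FrameIdx → A)
    (p : FrameIdx) : (coordMat X *ᵥ c) p = (∑ s, c s • X s) p.1 p.2 := by
  simp [coordMat, mulVec, dotProduct, Matrix.sum_apply, mul_comm]

lemma gramMat_mulVec {A : Type} [CommRing A] (X : FrameIdx → M₂(A)) (c : FrameIdx → A)
    (s : FrameIdx) : (gramMat X *ᵥ c) s = (X s * ∑ t, c t • X t).trace := by
  rw [trace_mul_sum_smul]
  simp [gramMat, mulVec, dotProduct, mul_comm]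

section Frame

variable {G : Type} [Monoid G] {k : Type} [Field k] {rbar : G →* M₂(k)}

lemma exists_frame (h : TraceNondeg rbar) :
    ∃ σ : FrameIdx → G, (coordMat (fun s => rbar (σ s))).det ≠ 0 ∧
      (gramMat (fun s => rbar (σ s))).det ≠ 0 := by
  classical
  have htop : Submodule.span k (Set.range rbar) = ⊤ := by
    by_contra hne
    obtain ⟨f, hf0, hf⟩ := Submodule.exists_le_ker_of_lt_top _ (Ne.lt_top hne)
    set T : M₂(k) := Matrix.of fun i j => f (Matrix.single j i 1) with hT
    have hfT : ∀ X, f X = (T * X).trace := by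
      intro X
      conv_lhs => rw [Matrix.matrix_eq_sum_single X]
      have : ∀ i j, Matrix.single i j (X i j) = X i j • Matrix.single i j (1 : k) := by simp
      simp only [map_sum, this, map_smul]
      simp [Matrix.trace, Matrix.mul_apply, hT, Fin.sum_univ_two]
      ring
    have hT0 : T = 0 := h T fun g => by
      rw [← hfT]; exact hf (Submodule.subset_span ⟨g, rfl⟩)
    exact hf0 (LinearMap.ext fun X => by simp [hfT, hT0])
  obtain ⟨b, hbsub, hbspan, hbli⟩ := exists_linearIndependent k (Set.range rbar)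
  have hB : ⊤ ≤ Submodule.span k (Set.range (Subtype.val : b → M₂(k))) := by
    rw [Subtype.range_coe, hbspan, htop]
  let B := Module.Basis.mk hbli hB
  let e := B.indexEquiv (Matrix.stdBasis k (Fin 2) (Fin 2))
  choose σ hσ using fun s : FrameIdx => hbsub (e.symm s).2
  refine ⟨σ, ?_, ?_⟩
  all_goals rw [Ne, ← Matrix.exists_mulVec_eq_zero_iff]; push Not; intro c hc
  all_goals
    have hsum : ∀ X : FrameIdx → M₂(k), (∀ s, X s = rbar (σ s)) → (∑ s, c s • X s) = 0 →
        c = 0 := by
      intro X hX h0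
      by_contra hne
      have hli : LinearIndependent k fun s => rbar (σ s) := by
        have : (fun s => rbar (σ s)) = Subtype.val ∘ e.symm := funext hσ
        rw [this]
        exact hbli.comp _ e.symm.injective
      exact hne (funext (Fintype.linearIndependent_iff.mp hli c (by simpa [hX] using h0)))
  · intro hc0
    apply hc
    refine hsum _ (fun _ => rfl) (Matrix.ext fun i j => ?_)
    rw [← coordMat_mulVec _ _ (i, j), hc0]; rfl
  · intro hc0
    apply hc
    refine hsum _ (fun _ => rfl) (h _ fun g => ?_)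
    have hg : rbar g ∈ Submodule.span k (Set.range fun s => rbar (σ s)) := by
      have : Set.range (fun s => rbar (σ s)) = b := by
        rw [show (fun s => rbar (σ s)) = Subtype.val ∘ e.symm from funext hσ,
          Set.range_comp, e.symm.range_eq_univ, Set.image_univ, Subtype.range_coe]
      rw [this, hbspan, htop]; trivial
    generalize rbar g = w at hg ⊢
    induction hg using Submodule.span_induction with
    | mem x hx =>
      obtain ⟨s, rfl⟩ := hx
      exact ((gramMat_mulVec (fun s => rbar (σ s)) c s).symm.trans (congrFun hc0 s)) |> fun h' =>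
        (Matrix.trace_mul_comm _ _).trans h'
    | zero => simp
    | add x y _ _ hx hy => rw [mul_add, Matrix.trace_add, hx, hy, add_zero]
    | smul a x _ hx => rw [mul_smul_comm, Matrix.trace_smul, hx, smul_zero]

variable {A : Type} [CommRing A] (π : A →+* k)

/-- Coefficients of a matrix in the frame `r ∘ σ`, computed from traces. -/
def frameCoeff (r : G →* M₂(A)) (σ : FrameIdx → G) (X : M₂(A)) : FrameIdx → A :=
  (gramMat fun s => r (σ s))⁻¹ *ᵥ fun s => (r (σ s) * X).trace

variable {π} {r : G →* M₂(A)} {σ : FrameIdx → G}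

lemma isUnit_gram (hπ : ∀ a, π a ≠ 0 → IsUnit a) (hr : ∀ g, (r g).map π = rbar g)
    (hσ : (gramMat fun s => rbar (σ s)).det ≠ 0) :
    IsUnit (gramMat fun s => r (σ s)).det := by
  refine hπ _ ?_
  rw [π.map_det]
  convert hσ
  ext s t
  simp only [RingHom.mapMatrix_apply, Matrix.map_apply, gramMat, Matrix.of_apply, ← hr,
    ← Matrix.map_mul]
  rw [Matrix.trace, Matrix.trace, map_sum]
  rfl

lemma isUnit_coord (hπ : ∀ a, π a ≠ 0 → IsUnit a) (hr : ∀ g, (r g).map π = rbar g)
    (hσ : (coordMat fun s => rbar (σ s)).det ≠ 0) :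
    IsUnit (coordMat fun s => r (σ s)).det := by
  refine hπ _ ?_
  rw [π.map_det]
  convert hσ
  ext p s
  simp [coordMat, ← hr]

variable (hg : IsUnit (gramMat fun s => r (σ s)).det) (hc : IsUnit (coordMat fun s => r (σ s)).det)

include hg hc in
lemma sum_frameCoeff (X : M₂(A)) : ∑ s, frameCoeff r σ X s • r (σ s) = X := by
  set c₀ := (coordMat fun s => r (σ s))⁻¹ *ᵥ (fun p => X p.1 p.2) with hc₀
  have hX : ∑ s, c₀ s • r (σ s) = X := by
    ext i j
    rw [← coordMat_mulVec _ _ (i, j), hc₀, mulVec_mulVec, Matrix.mul_nonsing_inv _ hc, one_mulVec]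
  suffices frameCoeff r σ X = c₀ by rw [this, hX]
  have : gramMat (fun s => r (σ s)) *ᵥ c₀ = fun s => (r (σ s) * X).trace := by
    funext s; rw [gramMat_mulVec, hX]
  rw [frameCoeff, ← this, mulVec_mulVec, Matrix.nonsing_inv_mul _ hg, one_mulVec]

end Frame

/-- Two lifts with the same traces are strictly conjugate. -/
theorem exists_conj_of_trace_eq {G : Type} [Monoid G] {k : Type} [Field k] {rbar : G →* M₂(k)}
    (hnd : TraceNondeg rbar) {A : Type} [CommRing A] {π : A →+* k}
    (hπ : ∀ a, π a ≠ 0 → IsUnit a) {r r' : G →* M₂(A)}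
    (hr : ∀ g, (r g).map π = rbar g) (hr' : ∀ g, (r' g).map π = rbar g)
    (htr : ∀ g, (r g).trace = (r' g).trace) :
    ∃ U : (M₂(A))ˣ, (U : M₂(A)).map π = 1 ∧ ∀ g, r' g * U = U * r g := by
  obtain ⟨σ, hσc, hσg⟩ := exists_frame hnd
  have hg := isUnit_gram hπ hr hσg
  have hc := isUnit_coord hπ hr hσc
  have hgram : gramMat (fun s => r' (σ s)) = gramMat (fun s => r (σ s)) := by
    ext s t; simp [gramMat, ← map_mul, htr]
  let ψ : M₂(A) →ₗ[A] M₂(A) :=
    { toFun := fun X => ∑ s, frameCoeff r σ X s • r' (σ s)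
      map_add' := fun X Y => by
        have e : frameCoeff r σ (X + Y) = frameCoeff r σ X + frameCoeff r σ Y := by
          simp only [frameCoeff, mul_add, Matrix.trace_add]
          exact Matrix.mulVec_add _ _ _
        simp [e, add_smul, Finset.sum_add_distrib]
      map_smul' := fun a X => by
        have e : frameCoeff r σ (a • X) = a • frameCoeff r σ X := by
          simp only [frameCoeff, mul_smul_comm, Matrix.trace_smul]
          exact Matrix.mulVec_smul _ a _
        simp [e, Finset.smul_sum, smul_smul] }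
  have hψr : ∀ g, ψ (r g) = r' g := by
    intro g
    show ∑ s, frameCoeff r σ (r g) s • r' (σ s) = r' g
    have : frameCoeff r σ (r g) = frameCoeff r' σ (r' g) := by
      rw [frameCoeff, frameCoeff, hgram]
      simp [← map_mul, htr]
    rw [this]
    exact sum_frameCoeff (hgram ▸ hg) (isUnit_coord hπ hr' hσc) _
  have hmul : ∀ X Y, ψ (X * Y) = ψ X * ψ Y := by
    intro X Y
    conv_lhs => rw [← sum_frameCoeff hg hc X, ← sum_frameCoeff hg hc Y]
    conv_rhs => rw [← sum_frameCoeff hg hc X, ← sum_frameCoeff hg hc Y]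
    simp only [Finset.sum_mul, Finset.mul_sum, map_sum, smul_mul_assoc, mul_smul_comm, map_smul,
      ← map_mul, hψr]
  have hred : ∀ X, (ψ X).map π = X.map π := by
    intro X
    conv_rhs => rw [← sum_frameCoeff hg hc X]
    show π.mapMatrix (∑ s, frameCoeff r σ X s • r' (σ s)) = π.mapMatrix _
    simp only [map_sum]
    refine Finset.sum_congr rfl fun s _ => ?_
    ext i j
    have h1 : π (r' (σ s) i j) = rbar (σ s) i j := by rw [← hr']; rfl
    have h2 : π (r (σ s) i j) = rbar (σ s) i j := by rw [← hr]; rfl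
    simp [h1, h2]
  set U : M₂(A) := ∑ i, ψ (Matrix.single i 0 1) * Matrix.single 0 i 1 with hU
  have hUmap : π.mapMatrix U = 1 := by
    rw [hU, map_sum]
    simp only [map_mul, RingHom.mapMatrix_apply, hred]
    ext i j
    fin_cases i <;> fin_cases j <;> simp [Fin.sum_univ_two, Matrix.mul_apply, Matrix.single]
  have hsingle : ∀ a b, ψ (Matrix.single a b 1) * U = U * Matrix.single a b 1 := by
    intro a b
    simp only [hU, Finset.mul_sum, Finset.sum_mul, ← mul_assoc, ← hmul]
    fin_cases a <;> fin_cases b <;>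
      simp [Fin.sum_univ_two, mul_assoc, Matrix.single_mul_single_same,
        Matrix.single_mul_single_of_ne]
  have hcomm : ∀ X, ψ X * U = U * X := by
    intro X
    have h1 : ∀ i j, Matrix.single i j (X i j) = X i j • Matrix.single i j (1 : A) := by simp
    rw [Matrix.matrix_eq_sum_single X]
    simp only [h1, map_sum, map_smul, Finset.sum_mul, Finset.mul_sum, smul_mul_assoc,
      mul_smul_comm, hsingle]
  have hu : IsUnit U := by
    rw [Matrix.isUnit_iff_isUnit_det]
    refine hπ _ ?_
    rw [π.map_det, hUmap, Matrix.det_one]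
    exact one_ne_zero
  obtain ⟨u, hu'⟩ := hu
  exact ⟨u, by rw [hu']; exact hUmap, fun g => by rw [hu', ← hψr, hcomm]⟩

/-- A lift can be conjugated into any suitable subring containing its traces. -/
theorem exists_conj_mem_subring {G : Type} [Monoid G] {k : Type} [Field k] {rbar : G →* M₂(k)}
    (hnd : TraceNondeg rbar) {A : Type} [CommRing A] {π : A →+* k}
    (hπ : ∀ a, π a ≠ 0 → IsUnit a) (hnil : ∀ a, π a = 0 → IsNilpotent a)
    {r : G →* M₂(A)} (hr : ∀ g, (r g).map π = rbar g) (B : Subring A)
    (hB : ∀ b : B, π b ≠ 0 → IsUnit b) (hBsurj : ∀ x, ∃ b : B, π b = x)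
    (htr : ∀ g, (r g).trace ∈ B) :
    ∃ U : (M₂(A))ˣ, (U : M₂(A)).map π = 1 ∧
      ∀ g i j, ((↑U⁻¹ : M₂(A)) * r g * U) i j ∈ B := by
  obtain ⟨σ, hσc, hσg⟩ := exists_frame hnd
  have hg := isUnit_gram hπ hr hσg
  have hc := isUnit_coord hπ hr hσc
  let Γ' : Matrix FrameIdx FrameIdx B :=
    Matrix.of fun s t => ⟨(r (σ s) * r (σ t)).trace, by rw [← map_mul]; exact htr _⟩
  have hΓ' : IsUnit Γ'.det := by
    refine hB _ ?_
    show π (B.subtype Γ'.det) ≠ 0
    rw [B.subtype.map_det]
    show π (gramMat fun s => r (σ s)).det ≠ 0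
    exact (hg.map π).ne_zero
  have hinv : ∀ s t, (gramMat fun s => r (σ s))⁻¹ s t ∈ B := by
    have h1 : (gramMat fun s => r (σ s))⁻¹ = B.subtype.mapMatrix Γ'⁻¹ := by
      refine Matrix.inv_eq_left_inv ?_
      have h2 : gramMat (fun s => r (σ s)) = B.subtype.mapMatrix Γ' := rfl
      rw [h2, ← map_mul, Matrix.nonsing_inv_mul _ hΓ', map_one]
    intro s t
    rw [h1]
    exact (Γ'⁻¹ s t).2
  let S : Subring M₂(A) :=
    { carrier := {X | ∀ g, (r g * X).trace ∈ B}
      zero_mem' := fun g => by simp
      one_mem' := fun g => by simpa using htr g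
      add_mem' := fun hX hY g => by rw [mul_add, Matrix.trace_add]; exact B.add_mem (hX g) (hY g)
      neg_mem' := fun hX g => by rw [mul_neg, Matrix.trace_neg]; exact B.neg_mem (hX g)
      mul_mem' := fun {X Y} hX hY g => by
        have hco : ∀ s, frameCoeff r σ X s ∈ B := fun s => by
          show (∑ t : FrameIdx, (gramMat fun s => r (σ s))⁻¹ s t * (r (σ t) * X).trace) ∈ B
          exact B.sum_mem fun t _ => B.mul_mem (hinv s t) (hX _)
        rw [← sum_frameCoeff hg hc X]
        simp only [Finset.sum_mul, Finset.mul_sum, smul_mul_assoc, mul_smul_comm,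
          Matrix.trace_sum, Matrix.trace_smul, smul_eq_mul]
        refine B.sum_mem fun s _ => B.mul_mem (hco s) ?_
        rw [← mul_assoc, ← map_mul]
        exact hY _ }
  have hSr : ∀ g, r g ∈ S := fun g h => by rw [← map_mul]; exact htr _
  have hStr : ∀ X ∈ S, X.trace ∈ B := fun X hX => by simpa using hX 1
  have hSsmul : ∀ (b : A) X, b ∈ B → X ∈ S → b • X ∈ S := fun b X hb hX g => by
    rw [mul_smul_comm, Matrix.trace_smul]; exact B.mul_mem hb (hX g)
  have hsurj : ∀ Y : M₂(k), ∃ X : S, (X : M₂(A)).map π = Y := by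
    intro Y
    choose b hb using fun s =>
      hBsurj (frameCoeff rbar σ Y s)
    refine ⟨⟨∑ s, (b s : A) • r (σ s),
      S.sum_mem fun s _ => hSsmul _ _ (b s).2 (hSr _)⟩, ?_⟩
    show π.mapMatrix _ = Y
    rw [map_sum]
    refine Eq.trans ?_ (sum_frameCoeff (Ne.isUnit hσg) (Ne.isUnit hσc) Y)
    refine Finset.sum_congr rfl fun s _ => ?_
    ext i j
    have h1 : π (r (σ s) i j) = rbar (σ s) i j := by rw [← hr]; rfl
    simp [h1, hb]
  let f : S →+* M₂(k) := π.mapMatrix.comp S.subtype
  have hfnil : ∀ x ∈ RingHom.ker f, IsNilpotent x := by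
    intro x hx
    obtain ⟨n, hn⟩ : IsNilpotent (Ideal.span (Set.range fun p : FrameIdx => (x : M₂(A)) p.1 p.2)) :=
      (Ideal.FG.isNilpotent_iff_le_nilradical
        (Submodule.fg_span (Set.finite_range _))).mpr <| by
        rw [Ideal.span_le]
        rintro _ ⟨⟨i, j⟩, rfl⟩
        exact mem_nilradical.mpr (hnil _ (congrFun (congrFun hx i) j))
    set I := Ideal.span (Set.range fun p : FrameIdx => (x : M₂(A)) p.1 p.2)
    have hpow : ∀ m i j, ((x : M₂(A)) ^ m) i j ∈ I ^ m := by
      intro m
      induction m with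
      | zero => simp
      | succ m ih =>
        intro i j
        rw [pow_succ, pow_succ]
        show ∑ l, ((x : M₂(A)) ^ m) i l * (x : M₂(A)) l j ∈ _
        exact Ideal.sum_mem _ fun l _ =>
          Ideal.mul_mem_mul (ih i l) (Ideal.subset_span ⟨(l, j), rfl⟩)
    refine ⟨n, Subtype.ext (Matrix.ext fun i j => ?_)⟩
    have := hpow n i j
    rw [hn] at this
    simpa using this
  obtain ⟨e₀, he₀⟩ := hsurj (Matrix.single 0 0 1)
  obtain ⟨e, he, hfe⟩ := exists_isIdempotentElem_eq_of_ker_isNilpotent f hfnil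
    (Matrix.single 0 0 1) ⟨e₀, he₀⟩ (by simp [IsIdempotentElem, Matrix.single_mul_single_same])
  obtain ⟨y₀, hy₀⟩ := hsurj (Matrix.single 1 0 1)
  obtain ⟨x₀, hx₀⟩ := hsurj (Matrix.single 0 1 1)
  set E : M₂(A) := (e : M₂(A)) with hE
  have hEE : E * E = E := congrArg Subtype.val he
  have hEmap : π.mapMatrix E = Matrix.single 0 0 1 := hfe
  set Y : M₂(A) := (1 - E) * y₀ * E with hY
  set X : M₂(A) := E * x₀ * (1 - E) with hX
  have hESm : E ∈ S := e.2
  have hYS : Y ∈ S := S.mul_mem (S.mul_mem (S.sub_mem S.one_mem hESm) y₀.2) hESm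
  have hXS : X ∈ S := S.mul_mem (S.mul_mem hESm x₀.2) (S.sub_mem S.one_mem hESm)
  have hEY : E * Y = 0 := by
    rw [hY, ← mul_assoc, ← mul_assoc, mul_sub, mul_one, hEE, sub_self, zero_mul, zero_mul]
  have hYE : Y * E = Y := by rw [hY, mul_assoc, hEE]
  have hYY : Y * Y = 0 := by
    conv_lhs => arg 1; rw [← hYE]
    rw [mul_assoc, hEY, mul_zero]
  have hYmap : π.mapMatrix Y = Matrix.single 1 0 1 := by
    simp only [hY, map_mul, map_sub, map_one, hEmap]
    rw [show π.mapMatrix (y₀ : M₂(A)) = _ from hy₀]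
    ext i j
    fin_cases i <;> fin_cases j <;> simp [Matrix.mul_apply, Fin.sum_univ_two, Matrix.single]
  have hXmap : π.mapMatrix X = Matrix.single 0 1 1 := by
    simp only [hX, map_mul, map_sub, map_one, hEmap]
    rw [show π.mapMatrix (x₀ : M₂(A)) = _ from hx₀]
    ext i j
    fin_cases i <;> fin_cases j <;> simp [Matrix.mul_apply, Fin.sum_univ_two, Matrix.single]
  set U : M₂(A) := E * Matrix.single 0 0 1 + Y * Matrix.single 0 1 1 with hU
  have hUmap : π.mapMatrix U = 1 := by
    simp only [hU, map_add, map_mul, hEmap, hYmap]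
    ext i j
    fin_cases i <;> fin_cases j <;> simp [Matrix.mul_apply, Fin.sum_univ_two, Matrix.single]
  have hu : IsUnit U := by
    rw [Matrix.isUnit_iff_isUnit_det]
    refine hπ _ ?_
    rw [π.map_det, hUmap, Matrix.det_one]
    exact one_ne_zero
  obtain ⟨u, hu'⟩ := hu
  have hs1 : (Matrix.single 0 1 1 : M₂(A)) * Matrix.single 0 0 1 = 0 := by simp
  have hs2 : (Matrix.single 0 0 1 : M₂(A)) * Matrix.single 1 0 1 = 0 := by simp
  have hs3 : (Matrix.single 0 0 1 : M₂(A)) * Matrix.single 0 0 1 = Matrix.single 0 0 1 := by simp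
  have hs4 : (Matrix.single 0 1 1 : M₂(A)) * Matrix.single 1 0 1 = Matrix.single 0 0 1 := by simp
  clear_value X Y E
  have hEU : E * (u : M₂(A)) = (u : M₂(A)) * Matrix.single 0 0 1 := by
    rw [hu', hU, mul_add, ← mul_assoc, hEE, ← mul_assoc, hEY, zero_mul, add_zero, add_mul,
      mul_assoc, mul_assoc, hs3, hs1, mul_zero, add_zero]
  have hYU : Y * (u : M₂(A)) = (u : M₂(A)) * Matrix.single 1 0 1 := by
    rw [hu', hU, mul_add, ← mul_assoc, hYE, ← mul_assoc, hYY, zero_mul, add_zero, add_mul,
      mul_assoc, mul_assoc, hs2, hs4, mul_zero, zero_add]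
  let cj : M₂(A) → M₂(A) := fun Z => (↑u⁻¹ : M₂(A)) * Z * u
  have hcj : ∀ Z W, cj (Z * W) = cj Z * cj W := fun Z W => by
    simp [cj, mul_assoc]
  have htrcj : ∀ Z, (cj Z).trace = Z.trace := fun Z => Matrix.trace_units_conj' u Z
  have hcE : cj E = Matrix.single 0 0 1 := by simp [cj, mul_assoc, hEU]
  have hcY : cj Y = Matrix.single 1 0 1 := by simp [cj, mul_assoc, hYU]
  have hcX : cj X = Matrix.single 0 1 (cj X 0 1) := by
    have h1 : cj X = Matrix.single 0 0 1 * cj X := by
      rw [← hcE, ← hcj, hX, ← mul_assoc, ← mul_assoc, hEE]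
    have h2 : cj X * Matrix.single 0 0 1 = 0 := by
      rw [← hcE, ← hcj, hX, mul_assoc, sub_mul, one_mul, hEE, sub_self, mul_zero]
      simp [cj]
    ext i j
    have h2' := congrFun (congrFun h2 i) 0
    have h1' := congrFun (congrFun h1 i) j
    fin_cases i <;> fin_cases j <;>
      simp [Matrix.mul_apply, Fin.sum_univ_two, Matrix.single] at h1' h2' ⊢ <;>
      first | assumption | rfl
  set c := cj X 0 1 with hcdef
  have hcB : c ∈ B := by
    have h := hStr _ (S.mul_mem hXS hYS)
    rw [← htrcj, hcj, hcY, hcX] at h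
    simpa [Matrix.trace, Matrix.mul_apply, Fin.sum_univ_two, Matrix.single] using h
  have hπc : π c = 1 := by
    have h0 : (u : M₂(A)) * cj X = X * (u : M₂(A)) := by simp [cj, mul_assoc]
    have h1 := congrArg π.mapMatrix h0
    have hu1 : π.mapMatrix (u : M₂(A)) = 1 := by rw [hu']; exact hUmap
    have h2 : π.mapMatrix (cj X) = Matrix.single 0 1 1 := by
      rw [← one_mul (π.mapMatrix (cj X)), ← hu1, ← map_mul, h0, map_mul, hu1, mul_one, hXmap]
    have h3 := congrFun (congrFun h2 0) 1
    simpa [hcdef, Matrix.single] using h3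
  obtain ⟨cu, hcu⟩ := hB ⟨c, hcB⟩ (by rw [hπc]; exact one_ne_zero)
  refine ⟨u, by rw [hu']; exact hUmap, fun g i j => ?_⟩
  show cj (r g) i j ∈ B
  have hW : ∀ W ∈ S, (cj W * cj (r g)).trace ∈ B := fun W hW => by
    rw [← hcj, htrcj]; exact hStr _ (S.mul_mem hW (hSr g))
  have h00 := hW E hESm
  rw [hcE] at h00
  have h10 := hW Y hYS
  rw [hcY] at h10
  have h01 := hW X hXS
  rw [hcX] at h01
  have htr' : (cj (r g)).trace ∈ B := by rw [htrcj]; exact htr g
  fin_cases i <;> fin_cases j
  · simpa [Matrix.trace, Matrix.mul_apply, Fin.sum_univ_two, Matrix.single] using h00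
  · simpa [Matrix.trace, Matrix.mul_apply, Fin.sum_univ_two, Matrix.single] using h10
  · have h' : c * cj (r g) 1 0 ∈ B := by
      simpa [Matrix.trace, Matrix.mul_apply, Fin.sum_univ_two, Matrix.single] using h01
    have h'' := B.mul_mem ((↑cu⁻¹ : B)).2 h'
    rw [← mul_assoc, show ((↑cu⁻¹ : B) : A) * c = 1 by
      rw [show c = ((cu : B) : A) by rw [hcu], ← Subring.coe_mul, Units.inv_mul]; rfl,
      one_mul] at h''
    exact h''
  · have h' : (Matrix.single 0 0 1 * cj (r g)).trace ∈ B := h00
    have := B.sub_mem htr' h'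
    simpa [Matrix.trace, Matrix.mul_apply, Fin.sum_univ_two, Matrix.single] using this

end Fermat.Agent.Deform
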