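import Fermat.Agent.Deform.MatrixRep
import Fermat.Agent.Deform.Carayol

/-!
# Absolute irreducibility and spanning of the image
-/

set_option autoImplicit false

noncomputable section

open Matrix

namespace Fermat.Agent.Deform

lemma RHasMatrix.irreducible_pairing {K : Type} [Field K] {ρ : ResidualGaloisRep K}
    {r : GalQ →* Mat2 K} (h : RHasMatrix ρ r) (hirr : ρ.IsIrreducible) (v w : Fin 2 → K)
    (hv : v ≠ 0) (hw : w ≠ 0) : ∃ g, w ⬝ᵥ (r g *ᵥ v) ≠ 0 := by
  obtain ⟨b, hb⟩ := h
  by_contra hcon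
  push Not at hcon
  have hco : ∀ σ x, (b.repr (ρ.ρ σ x) : Fin 2 → K) = r σ *ᵥ (b.repr x : Fin 2 → K) := by
    intro σ x
    rw [← hb σ, LinearMap.toMatrix_mulVec_repr]
  let W : Submodule K ρ.V :=
    { carrier := {x | ∀ g, w ⬝ᵥ (r g *ᵥ (b.repr x : Fin 2 → K)) = 0}
      add_mem' := fun {x y} hx hy g => by
        rw [map_add, Finsupp.coe_add, Matrix.mulVec_add, dotProduct_add, hx g, hy g, add_zero]
      zero_mem' := fun g => by simp
      smul_mem' := fun c x hx g => by
        rw [map_smul, Finsupp.coe_smul, Matrix.mulVec_smul, dotProduct_smul, hx g, smul_zero] }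
  have hW : ∀ σ, ∀ x ∈ W, ρ.ρ σ x ∈ W := fun σ x hx g => by
    rw [hco, Matrix.mulVec_mulVec, ← map_mul]; exact hx (g * σ)
  rcases hirr W hW with hbot | htop
  · have hmem : b.equivFun.symm v ∈ W := fun g => by
      show w ⬝ᵥ (r g *ᵥ (b.equivFun (b.equivFun.symm v))) = 0
      rw [LinearEquiv.apply_symm_apply]
      exact hcon g
    rw [hbot, Submodule.mem_bot, LinearEquiv.map_eq_zero_iff] at hmem
    exact hv hmem
  · apply hw
    funext i
    have hmem : b i ∈ W := by rw [htop]; trivial
    have := hmem 1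
    rw [map_one, Matrix.one_mulVec, b.repr_self, Finsupp.single_eq_pi_single,
      dotProduct_single, mul_one] at this
    exact this

lemma RHasMatrix.traceNondeg {k : Type} [Field k] {ρ : ResidualGaloisRep k}
    {r : GalQ →* Mat2 k} (h : RHasMatrix ρ r) (habs : ρ.IsAbsolutelyIrreducible) :
    TraceNondeg r := by
  refine TraceNondeg.of_map (algebraMap k (AlgebraicClosure k)) r ?_
  exact traceNondeg_of_isAlgClosed _
    ((h.baseChange (k' := AlgebraicClosure k)).irreducible_pairing habs)

end Fermat.Agent.Deform
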