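import Mathlib
import Fermat.Agent.Deform.AbsIrred

/-!
# Brauer–Nesbitt / Carayol: equal traces give equivalent representations

Only one of the two representations is assumed to be residually absolutely irreducible.
-/

set_option autoImplicit false

noncomputable section

open Matrix

namespace Fermat.Agent.Deform

lemma gramMat_eq_mul {A : Type} [CommRing A] (X : FrameIdx → Mat2 A) :
    gramMat X = ((coordMat X).submatrix Prod.swap id)ᵀ * coordMat X := by
  ext s t
  simp [gramMat, coordMat, Matrix.mul_apply, Matrix.trace, Fintype.sum_prod_type,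
    Fin.sum_univ_two]
  ring

/-- Equal traces and residual absolute irreducibility of one representation give conjugacy. -/
theorem exists_conj_of_trace_eq' {G : Type} [Monoid G] {k : Type} [Field k] {rbar : G →* Mat2 k}
    (hnd : TraceNondeg rbar) {A : Type} [CommRing A] {π : A →+* k}
    (hπ : ∀ a, π a ≠ 0 → IsUnit a) {r r' : G →* Mat2 A}
    (hr : ∀ g, (r g).map π = rbar g) (htr : ∀ g, (r g).trace = (r' g).trace) :
    ∃ U : (Mat2 A)ˣ, ∀ g, r' g * U = U * r g := by
  obtain ⟨σ, hσc, hσg⟩ := exists_frame hnd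
  have hg := isUnit_gram hπ hr hσg
  have hc := isUnit_coord hπ hr hσc
  have hgram : gramMat (fun s => r' (σ s)) = gramMat (fun s => r (σ s)) := by
    ext s t; simp [gramMat, ← map_mul, htr]
  have hc' : IsUnit (coordMat fun s => r' (σ s)).det := by
    have h := hgram ▸ hg
    rw [gramMat_eq_mul, Matrix.det_mul] at h
    exact isUnit_of_mul_isUnit_right h
  let ψ : Mat2 A →ₗ[A] Mat2 A :=
    { toFun := fun X => ∑ s, frameCoeff r σ X s • r' (σ s)
      map_add' := fun X Y => by
        have e : frameCoeff r σ (X + Y) = frameCoeff r σ X + frameCoeff r σ Y := by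
          simp only [frameCoeff, mul_add, Matrix.trace_add]
          exact Matrix.mulVec_add _ _ _
        simp [e, add_smul, Finset.sum_add_distrib]
      map_smul' := fun a X => by
        have e : frameCoeff r σ (a • X) = a • frameCoeff r σ X := by
          simp only [frameCoeff, mul_smul_comm, Matrix.trace_smul]
          exact Matrix.mulVec_smul _ a _
        simp [e, Finset.smul_sum, smul_smul] }
  have hψr : ∀ g, ψ (r g) = r' g := by
    intro g
    show ∑ s, frameCoeff r σ (r g) s • r' (σ s) = r' g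
    have : frameCoeff r σ (r g) = frameCoeff r' σ (r' g) := by
      rw [frameCoeff, frameCoeff, hgram]
      simp [← map_mul, htr]
    rw [this]
    exact sum_frameCoeff (hgram ▸ hg) hc' _
  have hmul : ∀ X Y, ψ (X * Y) = ψ X * ψ Y := by
    intro X Y
    conv_lhs => rw [← sum_frameCoeff hg hc X, ← sum_frameCoeff hg hc Y]
    conv_rhs => rw [← sum_frameCoeff hg hc X, ← sum_frameCoeff hg hc Y]
    simp only [Finset.sum_mul, Finset.mul_sum, map_sum, smul_mul_assoc, mul_smul_comm, map_smul,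
      ← map_mul, hψr]
  have htrψ : ∀ X, (ψ X).trace = X.trace := by
    intro X
    show (∑ s, frameCoeff r σ X s • r' (σ s)).trace = _
    conv_rhs => rw [← sum_frameCoeff hg hc X]
    simp [Matrix.trace_sum, Matrix.trace_smul, htr]
  -- some diagonal entry of `ψ E₀₀` is a unit
  obtain ⟨p, hp⟩ : ∃ p, π (ψ (Matrix.single 0 0 1) p p) ≠ 0 := by
    by_contra hcon
    push Not at hcon
    have h1 : π (ψ (Matrix.single 0 0 1)).trace = 1 := by rw [htrψ]; simp
    rw [Matrix.trace_fin_two, map_add, hcon, hcon, add_zero] at h1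
    exact zero_ne_one h1
  set U : Mat2 A := Matrix.of fun a i => ψ (Matrix.single i 0 1) a p with hU
  have hE : ∀ a b c, ψ (Matrix.single a b 1) * ψ (Matrix.single c 0 1) =
      if b = c then ψ (Matrix.single a 0 1) else 0 := by
    intro a b c
    rw [← hmul]
    split_ifs with h
    · subst h; rw [Matrix.single_mul_single_same, one_mul]
    · rw [Matrix.single_mul_single_of_ne _ _ _ _ h, map_zero]
  have hsingle : ∀ a b, ψ (Matrix.single a b 1) * U = U * Matrix.single a b 1 := by
    intro a b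
    ext i c
    have h1 : (ψ (Matrix.single a b 1) * U) i c =
        (ψ (Matrix.single a b 1) * ψ (Matrix.single c 0 1)) i p := rfl
    rw [h1, hE]
    by_cases h : b = c
    · subst h; simp [hU]
    · rw [if_neg h]
      simp [Ne.symm h]
  have hcomm : ∀ X, ψ X * U = U * X := by
    intro X
    have h1 : ∀ i j, Matrix.single i j (X i j) = X i j • Matrix.single i j (1 : A) := by simp
    rw [Matrix.matrix_eq_sum_single X]
    simp only [h1, map_sum, map_smul, Finset.sum_mul, Finset.mul_sum, smul_mul_assoc,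
      mul_smul_comm, hsingle]
  have hu : IsUnit U := by
    rw [Matrix.isUnit_iff_isUnit_det]
    refine hπ _ ?_
    rw [π.map_det, Ne, ← Matrix.exists_mulVec_eq_zero_iff]
    push Not
    intro c hc0 h
    apply hc0
    funext i
    have h1 : π.mapMatrix (ψ (Matrix.single 0 i 1) * U) *ᵥ c = 0 := by
      rw [map_mul, ← Matrix.mulVec_mulVec, h, Matrix.mulVec_zero]
    rw [hsingle] at h1
    have h2 := congrFun h1 p
    have h3 : (π.mapMatrix (U * Matrix.single 0 i 1) *ᵥ c) p = π (U p 0) * c i := by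
      rw [map_mul, ← Matrix.mulVec_mulVec]
      fin_cases i <;> simp [Matrix.mulVec, dotProduct, Fin.sum_univ_two, Matrix.single_apply]
    rw [h3] at h2
    exact (mul_eq_zero.mp h2).resolve_left hp
  obtain ⟨u, hu'⟩ := hu
  exact ⟨u, fun g => by rw [hu', ← hψr, hcomm]⟩

section Galois

open IsLocalRing

variable {A : Type} [CommRing A] [IsLocalRing A]

/-- Two adic representations with the same trace, one of them residually absolutely irreducible,
are equivalent. -/
theorem isEquiv_of_trace_eq {ρ₁ ρ₂ : GaloisRepAdic A}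
    (habs : ρ₁.residual.IsAbsolutelyIrreducible) (htr : ∀ σ, ρ₁.trace σ = ρ₂.trace σ) :
    ρ₁.IsEquiv ρ₂ := by
  obtain ⟨r₁, h₁⟩ := exists_hasMatrix ρ₁
  obtain ⟨r₂, h₂⟩ := exists_hasMatrix ρ₂
  obtain ⟨U, hU⟩ := exists_conj_of_trace_eq' ((HasMatrix.residual h₁).traceNondeg habs)
    (π := residue A) (fun a ha => notMem_maximalIdeal.mp fun h => ha ((residue_eq_zero_iff a).mpr h))
    (r := r₁) (r' := r₂) (fun g => rfl)
    (fun g => by rw [← h₁.trace_eq, ← h₂.trace_eq, htr])
  exact h₁.isEquiv (h₂.conj U hU)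

lemma trace_pow_eq_of_trace_det_eq {R : Type} [CommRing R] {M M' : Mat2 R}
    (ht : M.trace = M'.trace) (hd : M.det = M'.det) (n : ℕ) : (M ^ n).trace = (M' ^ n).trace := by
  have key : ∀ (X : Mat2 R) (n : ℕ),
      (X ^ (n + 2)).trace = X.trace * (X ^ (n + 1)).trace - X.det * (X ^ n).trace := by
    intro X n
    have hch : X * X = X.trace • X - X.det • 1 := by
      ext i j
      fin_cases i <;> fin_cases j <;>
        simp [Matrix.mul_apply, Fin.sum_univ_two, Matrix.trace_fin_two, Matrix.det_fin_two] <;>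
        ring
    rw [pow_add, pow_two, hch, mul_sub, mul_smul_comm, mul_smul_comm, mul_one, ← pow_succ,
      Matrix.trace_sub, Matrix.trace_smul, Matrix.trace_smul, smul_eq_mul, smul_eq_mul]
  induction n using Nat.twoStepInduction with
  | zero => simp
  | one => simp [ht]
  | more n ih1 ih2 => rw [key, key, ih1, ih2, ht, hd]

/-- Trace equality from equal characteristic polynomials on a set of elements whose powers are
dense. -/
theorem trace_eq_of_charpoly_eq_on [IsHausdorff (maximalIdeal A) A] {ρ₁ ρ₂ : GaloisRepAdic A}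
    (Φ : Set GalQ)
    (hdense : ∀ (F : IntermediateField ℚ (AlgebraicClosure ℚ)), FiniteDimensional ℚ F →
      ∀ g : GalQ, ∃ σ ∈ Φ, ∃ b : ℕ, ∀ x ∈ F, (σ ^ b) x = g x)
    (hchar : ∀ σ ∈ Φ, LinearMap.charpoly (ρ₁.ρ σ) = LinearMap.charpoly (ρ₂.ρ σ)) :
    ∀ g, ρ₁.trace g = ρ₂.trace g := by
  intro g
  obtain ⟨r₁, h₁⟩ := exists_hasMatrix ρ₁
  obtain ⟨r₂, h₂⟩ := exists_hasMatrix ρ₂
  rw [h₁.trace_eq, h₂.trace_eq]
  have hchar' : ∀ (ρ : GaloisRepAdic A) (r : GalQ →* Mat2 A), HasMatrix ρ r → ∀ σ,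
      LinearMap.charpoly (ρ.ρ σ) = (r σ).charpoly := by
    rintro ρ r ⟨b, hb⟩ σ
    rw [← hb σ, LinearMap.charpoly_toMatrix]
  refine IsHausdorff.eq_iff_smodEq (I := maximalIdeal A) |>.mpr fun n => ?_
  rw [SModEq.sub_mem, smul_eq_mul, Ideal.mul_top]
  obtain ⟨L₁, hL₁, hr₁⟩ := h₁.matCts n
  obtain ⟨L₂, hL₂, hr₂⟩ := h₂.matCts n
  obtain ⟨σ, hσ, b, hb⟩ := hdense (L₁ ⊔ L₂) inferInstance g
  have hfix : ∀ x ∈ L₁ ⊔ L₂, ((σ ^ b)⁻¹ * g) x = x := fun x hx => by
    rw [AlgEquiv.mul_apply, ← hb x hx]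
    exact (σ ^ b).symm_apply_apply x
  have hd : ∀ (r : GalQ →* Mat2 A) (L : IntermediateField ℚ (AlgebraicClosure ℚ)), L ≤ L₁ ⊔ L₂ →
      (∀ τ : GalQ, (∀ x ∈ L, τ x = x) → ∀ i j, (r τ - 1) i j ∈ maximalIdeal A ^ n) →
      (r g).trace - (r σ ^ b).trace ∈ maximalIdeal A ^ n := by
    intro r L hL hr
    have hm := hr _ fun x hx => hfix x (hL hx)
    have e : r g - r σ ^ b = r σ ^ b * (r ((σ ^ b)⁻¹ * g) - 1) := by
      rw [mul_sub, mul_one, ← map_pow, ← map_mul, mul_inv_cancel_left]
    rw [← Matrix.trace_sub, e, Matrix.trace_fin_two, Matrix.mul_apply, Matrix.mul_apply]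
    exact add_mem (Ideal.sum_mem _ fun x _ => Ideal.mul_mem_left _ _ (hm _ _))
      (Ideal.sum_mem _ fun x _ => Ideal.mul_mem_left _ _ (hm _ _))
  have hp : (r₁ σ ^ b).trace = (r₂ σ ^ b).trace := by
    have hc := hchar σ hσ
    rw [hchar' ρ₁ r₁ h₁, hchar' ρ₂ r₂ h₂, Matrix.charpoly_fin_two, Matrix.charpoly_fin_two] at hc
    refine trace_pow_eq_of_trace_det_eq ?_ ?_ b
    · simpa using congrArg (fun P => Polynomial.coeff P 1) hc
    · simpa using congrArg (fun P => Polynomial.coeff P 0) hc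
  have e1 := hd r₁ L₁ le_sup_left hr₁
  have e2 := hd r₂ L₂ le_sup_right hr₂
  have := sub_mem e1 e2
  rwa [hp, sub_sub_sub_cancel_right] at this

/-- Adic representations with equal characteristic polynomials on a dense set, one of them
residually absolutely irreducible, are equivalent. -/
theorem isEquiv_of_charpoly_eq_on [IsHausdorff (maximalIdeal A) A] {ρ₁ ρ₂ : GaloisRepAdic A}
    (habs : ρ₁.residual.IsAbsolutelyIrreducible) (Φ : Set GalQ)
    (hdense : ∀ (F : IntermediateField ℚ (AlgebraicClosure ℚ)), FiniteDimensional ℚ F →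
      ∀ g : GalQ, ∃ σ ∈ Φ, ∃ b : ℕ, ∀ x ∈ F, (σ ^ b) x = g x)
    (hchar : ∀ σ ∈ Φ, LinearMap.charpoly (ρ₁.ρ σ) = LinearMap.charpoly (ρ₂.ρ σ)) :
    ρ₁.IsEquiv ρ₂ :=
  isEquiv_of_trace_eq habs (trace_eq_of_charpoly_eq_on Φ hdense hchar)

/-- Unramifiedness transfers along equivalences. -/
lemma isUnramifiedAt_of_isEquiv {ρ₁ ρ₂ : GaloisRepAdic A} (h : ρ₁.IsEquiv ρ₂) {q : ℕ}
    (h₁ : ρ₁.IsUnramifiedAt q) : ρ₂.IsUnramifiedAt q := by
  obtain ⟨e⟩ := h
  intro P hP σ hσ
  refine LinearMap.ext fun x => ?_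
  obtain ⟨y, rfl⟩ := e.toLinearEquiv.surjective x
  rw [← e.map_apply, h₁ P hP σ hσ]
  rfl

end Galois

end Fermat.Agent.Deform
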