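import Mathlib
import Fermat.Prelude.Def_GaloisRep_Adic

/-!
# Two-dimensional adic Galois representations as matrix-valued homomorphisms

Reusable lemmas: `HasMatrix ρ r` says that `r` is the matrix of `ρ` in some basis.
-/

set_option autoImplicit false
set_option linter.style.haveILetI false

noncomputable section

open scoped TensorProduct

namespace Fermat.Agent.Deform

/-- The absolute Galois group of `ℚ`. -/
abbrev GalQ := AlgebraicClosure ℚ ≃ₐ[ℚ] AlgebraicClosure ℚ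

/-- Two by two matrices. -/
abbrev Mat2 (A : Type) := Matrix (Fin 2) (Fin 2) A

/-- Entrywise application of a ring homomorphism. -/
def mapHom {A B : Type} [CommRing A] [CommRing B] (φ : A →+* B) : Mat2 A →* Mat2 B :=
  φ.mapMatrix.toMonoidHom

@[simp] lemma mapHom_apply {A B : Type} [CommRing A] [CommRing B] (φ : A →+* B) (M : Mat2 A) :
    mapHom φ M = M.map φ := rfl

/-- The action of matrices on column vectors. -/
def actHom (A : Type) [CommRing A] : Mat2 A →* Module.End A (Fin 2 → A) :=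
  (Matrix.toLinAlgEquiv' : Mat2 A ≃ₐ[A] _).toMonoidHom

variable {A : Type} [CommRing A] [IsLocalRing A]

/-- Adic continuity of a matrix representation. -/
def MatCts (r : GalQ →* Mat2 A) : Prop :=
  ∀ n : ℕ, ∃ L : IntermediateField ℚ (AlgebraicClosure ℚ), FiniteDimensional ℚ L ∧
    ∀ σ : GalQ, (∀ x ∈ L, σ x = x) → ∀ i j, (r σ - 1) i j ∈ IsLocalRing.maximalIdeal A ^ n

omit [IsLocalRing A] in
lemma pi_mem_smul_top {I : Ideal A} {w : Fin 2 → A} (hw : ∀ i, w i ∈ I) :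
    w ∈ I • (⊤ : Submodule A (Fin 2 → A)) := by
  rw [pi_eq_sum_univ w]
  exact Submodule.sum_mem _ fun i _ => Submodule.smul_mem_smul (hw i) Submodule.mem_top

/-- The representation on `A²` attached to a matrix representation. -/
def ofMatrix (r : GalQ →* Mat2 A) (h : MatCts r) : GaloisRepAdic A where
  V := Fin 2 → A
  finrank_eq := by simp
  ρ := (actHom A).comp r
  isAdicContinuous := by
    intro n
    obtain ⟨L, hL, hr⟩ := h n
    refine ⟨L, hL, fun σ hσ v => ?_⟩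
    have : ((actHom A).comp r) σ v - v
        = (r σ - 1).mulVec v := by
      simp [actHom, Matrix.sub_mulVec]
    rw [this]
    refine pi_mem_smul_top fun i => ?_
    show ∑ j, (r σ - 1) i j * v j ∈ _
    exact Ideal.sum_mem _ fun j _ => Ideal.mul_mem_right _ _ (hr σ hσ i j)

lemma ofMatrix_apply (r : GalQ →* Mat2 A) (h : MatCts r) (σ : GalQ) (v : Fin 2 → A) :
    (ofMatrix r h).ρ σ v = (r σ).mulVec v := rfl

/-- `r` is the matrix of `ρ` in some basis. -/
def HasMatrix (ρ : GaloisRepAdic A) (r : GalQ →* Mat2 A) : Prop :=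
  ∃ b : Module.Basis (Fin 2) A ρ.V, ∀ σ, LinearMap.toMatrix b b (ρ.ρ σ) = r σ

lemma hasMatrix_ofMatrix (r : GalQ →* Mat2 A) (h : MatCts r) : HasMatrix (ofMatrix r h) r := by
  refine ⟨Pi.basisFun A (Fin 2), fun σ => ?_⟩
  show LinearMap.toMatrix (Pi.basisFun A (Fin 2)) (Pi.basisFun A (Fin 2))
      (Matrix.toLin' (r σ)) = r σ
  simp

/-- The matrix representation of `ρ` in a basis. -/
def matrixHom (ρ : GaloisRepAdic A) (b : Module.Basis (Fin 2) A ρ.V) : GalQ →* Mat2 A :=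
  (LinearMap.toMatrixAlgEquiv b).toMonoidHom.comp ρ.ρ

lemma hasMatrix_matrixHom (ρ : GaloisRepAdic A) (b : Module.Basis (Fin 2) A ρ.V) :
    HasMatrix ρ (matrixHom ρ b) := ⟨b, fun _ => rfl⟩

lemma exists_hasMatrix (ρ : GaloisRepAdic A) : ∃ r, HasMatrix ρ r :=
  ⟨_, hasMatrix_matrixHom ρ (Module.finBasisOfFinrankEq A ρ.V ρ.finrank_eq)⟩

namespace HasMatrix

variable {ρ ρ' : GaloisRepAdic A} {r r' : GalQ →* Mat2 A}

lemma matCts (h : HasMatrix ρ r) : MatCts r := by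
  obtain ⟨b, hb⟩ := h
  intro n
  obtain ⟨L, hL, hρ⟩ := ρ.isAdicContinuous n
  refine ⟨L, hL, fun σ hσ i j => ?_⟩
  have : (r σ - 1) i j = b.repr (ρ.ρ σ (b j) - b j) i := by
    rw [← hb σ, Matrix.sub_apply, LinearMap.toMatrix_apply, map_sub, Finsupp.sub_apply,
      b.repr_self, Finsupp.single_apply, Matrix.one_apply]
    simp only [eq_comm]
  rw [this]
  refine Submodule.smul_induction_on (hρ σ hσ (b j)) (fun a ha v _ => ?_) (fun x y hx hy => ?_)
  · rw [map_smul, Finsupp.smul_apply, smul_eq_mul]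
    exact Ideal.mul_mem_right _ _ ha
  · rw [map_add, Finsupp.add_apply]
    exact Ideal.add_mem _ hx hy

lemma of_equiv (h : HasMatrix ρ r) (e : ρ.IsEquiv ρ') : HasMatrix ρ' r := by
  obtain ⟨e⟩ := e
  obtain ⟨b, hb⟩ := h
  refine ⟨b.map e.toLinearEquiv, fun σ => ?_⟩
  rw [← hb σ]
  ext i j
  simp [LinearMap.toMatrix_apply, ← e.map_apply]

lemma isEquiv (h : HasMatrix ρ r) (h' : HasMatrix ρ' r) : ρ.IsEquiv ρ' := by
  obtain ⟨b, hb⟩ := h
  obtain ⟨b', hb'⟩ := h'
  refine ⟨{ toLinearEquiv := b.equiv b' (Equiv.refl _), map_apply := fun σ x => ?_ }⟩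
  have : (b.equiv b' (Equiv.refl _)).toLinearMap ∘ₗ ρ.ρ σ
      = ρ'.ρ σ ∘ₗ (b.equiv b' (Equiv.refl _)).toLinearMap := by
    refine b.ext fun j => b'.ext_elem fun i => ?_
    have h1 := congrFun (congrFun (hb σ) i) j
    have h2 := congrFun (congrFun (hb' σ) i) j
    rw [LinearMap.toMatrix_apply] at h1 h2
    simp [Module.Basis.equiv, h1, h2]
  exact LinearMap.congr_fun this x

lemma trace_eq (h : HasMatrix ρ r) (σ : GalQ) : ρ.trace σ = (r σ).trace := by
  obtain ⟨b, hb⟩ := h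
  rw [GaloisRepAdic.trace, LinearMap.trace_eq_matrix_trace A b, hb]

lemma baseChangeAlong {B : Type} [CommRing B] [IsLocalRing B] (φ : A →+* B) (hφ : IsLocalHom φ)
    (h : HasMatrix ρ r) :
    HasMatrix (ρ.baseChangeAlong φ hφ) ((mapHom φ).comp r) := by
  obtain ⟨b, hb⟩ := h
  letI : Algebra A B := φ.toAlgebra
  refine ⟨Algebra.TensorProduct.basis B b, fun σ => ?_⟩
  show LinearMap.toMatrix _ _ ((ρ.ρ σ).baseChange B) = _
  rw [LinearMap.toMatrix_baseChange, hb]
  rfl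

end HasMatrix

lemma matCts_map {B : Type} [CommRing B] [IsLocalRing B] (φ : A →+* B) (hφ : IsLocalHom φ)
    {r : GalQ →* Mat2 A} (h : MatCts r) : MatCts ((mapHom φ).comp r) :=
  ((hasMatrix_ofMatrix r h).baseChangeAlong φ hφ).matCts

lemma isEquiv_baseChange_ofMatrix {B : Type} [CommRing B] [IsLocalRing B] (φ : A →+* B)
    (hφ : IsLocalHom φ) {r : GalQ →* Mat2 A} (h : MatCts r) :
    ((ofMatrix r h).baseChangeAlong φ hφ).IsEquiv
      (ofMatrix _ (matCts_map φ hφ h)) :=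
  ((hasMatrix_ofMatrix r h).baseChangeAlong φ hφ).isEquiv (hasMatrix_ofMatrix _ _)

/-- Conjugation of a matrix representation: `U r' = r U`. -/
lemma isEquiv_of_conj {r r' : GalQ →* Mat2 A} (h : MatCts r) (h' : MatCts r') (U : (Mat2 A)ˣ)
    (hU : ∀ σ, r σ * U = U * r' σ) : (ofMatrix r' h').IsEquiv (ofMatrix r h) :=
  let e : (Fin 2 → A) ≃ₗ[A] (Fin 2 → A) :=
    LinearEquiv.ofLinearMap (Matrix.toLin' (U : Mat2 A))
      (Matrix.toLin' ((U⁻¹ : (Mat2 A)ˣ) : Mat2 A))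
      (by rw [← Matrix.toLin'_mul, Units.mul_inv, Matrix.toLin'_one])
      (by rw [← Matrix.toLin'_mul, Units.inv_mul, Matrix.toLin'_one])
  have he : ∀ (σ : GalQ) (x : Fin 2 → A),
      (U : Mat2 A).mulVec ((r' σ).mulVec x) = (r σ).mulVec ((U : Mat2 A).mulVec x) := fun σ x => by
    rw [Matrix.mulVec_mulVec, Matrix.mulVec_mulVec, hU]
  ⟨{ toLinearEquiv := e, map_apply := he }⟩

lemma HasMatrix.conj {ρ : GaloisRepAdic A} {r r' : GalQ →* Mat2 A} (h : HasMatrix ρ r)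
    (U : (Mat2 A)ˣ) (hU : ∀ σ, r σ * U = U * r' σ) : HasMatrix ρ r' := by
  have hc : MatCts r' := by
    intro n
    obtain ⟨L, hL, hr⟩ := h.matCts n
    refine ⟨L, hL, fun σ hσ i j => ?_⟩
    have e : r' σ - 1 = (↑U⁻¹ : Mat2 A) * (r σ - 1) * U := by
      rw [mul_sub, sub_mul, mul_one, Units.inv_mul, mul_assoc, hU, Units.inv_mul_cancel_left]
    rw [e, Matrix.mul_apply]
    refine Ideal.sum_mem _ fun x _ => Ideal.mul_mem_right _ _ ?_
    rw [Matrix.mul_apply]
    exact Ideal.sum_mem _ fun y _ => Ideal.mul_mem_left _ _ (hr σ hσ _ _)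
  obtain ⟨e⟩ := isEquiv_of_conj h.matCts hc U hU
  obtain ⟨e'⟩ := (hasMatrix_ofMatrix r h.matCts).isEquiv h
  exact (hasMatrix_ofMatrix r' hc).of_equiv ⟨e.trans e'⟩

/-- Residual representations: `r` is the matrix in some basis. -/
def RHasMatrix {k : Type} [Field k] (ρ : ResidualGaloisRep k) (r : GalQ →* Mat2 k) : Prop :=
  ∃ b : Module.Basis (Fin 2) k ρ.V, ∀ σ, LinearMap.toMatrix b b (ρ.ρ σ) = r σ

lemma exists_rhasMatrix {k : Type} [Field k] (ρ : ResidualGaloisRep k) :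
    ∃ r, RHasMatrix ρ r :=
  ⟨(LinearMap.toMatrixAlgEquiv (Module.finBasisOfFinrankEq k ρ.V ρ.finrank_eq)).toMonoidHom.comp
      ρ.ρ, Module.finBasisOfFinrankEq k ρ.V ρ.finrank_eq, fun _ => rfl⟩

namespace RHasMatrix

variable {k : Type} [Field k] {ρ ρ' : ResidualGaloisRep k} {r r' : GalQ →* Mat2 k}

lemma of_equiv (h : RHasMatrix ρ r) (e : ρ.IsEquiv ρ') : RHasMatrix ρ' r := by
  obtain ⟨e⟩ := e
  obtain ⟨b, hb⟩ := h
  refine ⟨b.map e.toLinearEquiv, fun σ => ?_⟩
  rw [← hb σ]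
  ext i j
  simp [LinearMap.toMatrix_apply, ← e.map_apply]

lemma isEquiv (h : RHasMatrix ρ r) (h' : RHasMatrix ρ' r) : ρ.IsEquiv ρ' := by
  obtain ⟨b, hb⟩ := h
  obtain ⟨b', hb'⟩ := h'
  refine ⟨{ toLinearEquiv := b.equiv b' (Equiv.refl _), map_apply := fun σ x => ?_ }⟩
  have : (b.equiv b' (Equiv.refl _)).toLinearMap ∘ₗ ρ.ρ σ
      = ρ'.ρ σ ∘ₗ (b.equiv b' (Equiv.refl _)).toLinearMap := by
    refine b.ext fun j => b'.ext_elem fun i => ?_
    have h1 := congrFun (congrFun (hb σ) i) j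
    have h2 := congrFun (congrFun (hb' σ) i) j
    rw [LinearMap.toMatrix_apply] at h1 h2
    simp [Module.Basis.equiv, h1, h2]
  exact LinearMap.congr_fun this x

lemma baseChange {k' : Type} [Field k'] [Algebra k k'] (h : RHasMatrix ρ r) :
    RHasMatrix (ρ.baseChange k')
      ((mapHom (algebraMap k k')).comp r) := by
  obtain ⟨b, hb⟩ := h
  refine ⟨Algebra.TensorProduct.basis k' b, fun σ => ?_⟩
  show LinearMap.toMatrix _ _ ((ρ.ρ σ).baseChange k') = _
  rw [LinearMap.toMatrix_baseChange, hb]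
  rfl

lemma baseChangeAlong {k' : Type} [Field k'] (ψ : k →+* k') (h : RHasMatrix ρ r) :
    RHasMatrix (ρ.baseChangeAlong ψ) ((mapHom ψ).comp r) := by
  letI : Algebra k k' := ψ.toAlgebra
  exact h.baseChange

lemma exists_conj (h : RHasMatrix ρ r) (h' : RHasMatrix ρ r') :
    ∃ U : (Mat2 k)ˣ, ∀ σ, r σ * U = U * r' σ := by
  obtain ⟨b, hb⟩ := h
  obtain ⟨b', hb'⟩ := h'
  refine ⟨⟨b.toMatrix b', b'.toMatrix b, b.toMatrix_mul_toMatrix_flip b',
    b'.toMatrix_mul_toMatrix_flip b⟩, fun σ => ?_⟩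
  show r σ * b.toMatrix b' = b.toMatrix b' * r' σ
  rw [← hb σ, ← hb' σ, linearMap_toMatrix_mul_basis_toMatrix,
    basis_toMatrix_mul_linearMap_toMatrix]

end RHasMatrix

lemma HasMatrix.residual {ρ : GaloisRepAdic A} {r : GalQ →* Mat2 A} (h : HasMatrix ρ r) :
    RHasMatrix ρ.residual
      ((mapHom (IsLocalRing.residue A)).comp r) := by
  obtain ⟨b, hb⟩ := h
  refine ⟨Algebra.TensorProduct.basis (IsLocalRing.ResidueField A) b, fun σ => ?_⟩
  show LinearMap.toMatrix _ _ ((ρ.ρ σ).baseChange (IsLocalRing.ResidueField A)) = _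
  rw [LinearMap.toMatrix_baseChange, hb]
  rfl

/-- A representation whose residual representation is `ρ₀` has a matrix lifting a given matrix
of `ρ₀`. -/
lemma exists_hasMatrix_lifting (ρ : GaloisRepAdic A) {ρ₀ : ResidualGaloisRep (IsLocalRing.ResidueField A)}
    {r₀ : GalQ →* Mat2 (IsLocalRing.ResidueField A)} (h₀ : RHasMatrix ρ₀ r₀)
    (e : ρ.residual.IsEquiv ρ₀) :
    ∃ r, HasMatrix ρ r ∧ ∀ σ, (r σ).map (IsLocalRing.residue A) = r₀ σ := by
  obtain ⟨r, hr⟩ := exists_hasMatrix ρ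
  obtain ⟨e⟩ := e
  obtain ⟨Ub, hUb⟩ := (HasMatrix.residual hr).exists_conj (h₀.of_equiv ⟨e.symm⟩)
  choose f hf using IsLocalRing.residue_surjective (R := A)
  set U : Mat2 A := (Ub : Mat2 _).map f with hU
  have hmap : U.map (IsLocalRing.residue A) = Ub := by
    ext i j
    simp [hU, hf]
  have hu : IsUnit U := by
    rw [Matrix.isUnit_iff_isUnit_det]
    refine isUnit_of_map_unit (IsLocalRing.residue A) _ ?_
    rw [RingHom.map_det]
    show IsUnit ((U.map (IsLocalRing.residue A)).det)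
    rw [hmap, ← Matrix.isUnit_iff_isUnit_det]
    exact Ub.isUnit
  obtain ⟨u, hu'⟩ := hu
  let r' : GalQ →* Mat2 A :=
    { toFun := fun σ => (↑u⁻¹ : Mat2 A) * r σ * u
      map_one' := by simp
      map_mul' := fun a b => by simp [mul_assoc] }
  refine ⟨r', hr.conj u fun σ => by simp [r', mul_assoc], fun σ => ?_⟩
  have h3 : (u : Mat2 A) * r' σ = r σ * u := by simp [r', mul_assoc]
  have h4 := congrArg (IsLocalRing.residue A).mapMatrix h3
  rw [map_mul, map_mul, hu'] at h4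
  have h5 : (IsLocalRing.residue A).mapMatrix U = (Ub : Mat2 _) := hmap
  rw [h5] at h4
  exact Ub.isUnit.mul_left_cancel (h4.trans (hUb σ))

end Fermat.Agent.Deform
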