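import Mathlib
import Fermat.Prelude.Def_GaloisRep_DeformationCondition

/-!
# Test algebras over a local ring `𝒪` via their residue maps `A →ₐ[𝒪] k`
-/

set_option autoImplicit false

noncomputable section

open IsLocalRing

namespace Fermat.Agent.Deform

variable {𝒪 : Type} [CommRing 𝒪] [IsLocalRing 𝒪]
variable {A : Type} [CommRing A] [Algebra 𝒪 A]

lemma resMap_surjective (π : A →ₐ[𝒪] ResidueField 𝒪) : Function.Surjective π := fun x => by
  obtain ⟨c, rfl⟩ := residue_surjective x
  exact ⟨algebraMap 𝒪 A c, by simp⟩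

variable [IsLocalRing A]

lemma mem_maximal_iff_resMap (π : A →ₐ[𝒪] ResidueField 𝒪) {a : A} :
    a ∈ maximalIdeal A ↔ π a = 0 := by
  have h : RingHom.ker π.toRingHom = maximalIdeal A :=
    eq_maximalIdeal (RingHom.ker_isMaximal_of_surjective _ (resMap_surjective π))
  rw [← h, RingHom.mem_ker]; rfl

lemma isUnit_of_resMap_ne_zero (π : A →ₐ[𝒪] ResidueField 𝒪) {a : A} (h : π a ≠ 0) :
    IsUnit a :=
  notMem_maximalIdeal.mp fun hm => h ((mem_maximal_iff_resMap π).mp hm)

lemma sub_algebraMap_mem_maximal (π : A →ₐ[𝒪] ResidueField 𝒪) {a : A} {c : 𝒪}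
    (h : residue 𝒪 c = π a) : a - algebraMap 𝒪 A c ∈ maximalIdeal A := by
  rw [mem_maximal_iff_resMap π]; simp [h]

lemma algebraMap_mem_maximal (π : A →ₐ[𝒪] ResidueField 𝒪) {c : 𝒪} (h : c ∈ maximalIdeal 𝒪) :
    algebraMap 𝒪 A c ∈ maximalIdeal A := by
  rw [mem_maximal_iff_resMap π, π.commutes]
  exact (residue_eq_zero_iff c).mpr h

lemma resMap_unique (π π' : A →ₐ[𝒪] ResidueField 𝒪) : π = π' := by
  ext a
  obtain ⟨c, hc⟩ := residue_surjective (π a)
  have h := (mem_maximal_iff_resMap π').mp (sub_algebraMap_mem_maximal π hc)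
  rw [map_sub, sub_eq_zero, π'.commutes] at h
  rw [h, ← hc]; rfl

lemma isLocalHom_algebraMap_of_resMap (π : A →ₐ[𝒪] ResidueField 𝒪) :
    IsLocalHom (algebraMap 𝒪 A) where
  map_nonunit c hc := by
    by_contra h
    exact ((mem_maximal_iff_resMap π).not.mpr fun h0 => (hc.map π).ne_zero h0)
      (algebraMap_mem_maximal π ((mem_maximalIdeal c).mpr h))

lemma residue_surjective_of_resMap (π : A →ₐ[𝒪] ResidueField 𝒪) :
    Function.Surjective (residue A ∘ algebraMap 𝒪 A) := by
  intro x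
  obtain ⟨a, rfl⟩ := residue_surjective x
  obtain ⟨c, hc⟩ := residue_surjective (π a)
  refine ⟨c, ?_⟩
  have := (residue_eq_zero_iff _).mpr (sub_algebraMap_mem_maximal π hc)
  rw [map_sub, sub_eq_zero] at this
  exact this.symm

lemma exists_resMap (h1 : IsLocalHom (algebraMap 𝒪 A))
    (h2 : Function.Surjective (residue A ∘ algebraMap 𝒪 A)) :
    Nonempty (A →ₐ[𝒪] ResidueField 𝒪) := by
  let m := ResidueField.map (algebraMap 𝒪 A)
  have hm : Function.Bijective m := by
    refine ⟨m.injective, fun x => ?_⟩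
    obtain ⟨c, hc⟩ := h2 x
    exact ⟨residue 𝒪 c, by rw [← hc]; exact ResidueField.map_residue _ c⟩
  let e := RingEquiv.ofBijective m hm
  exact ⟨{ e.symm.toRingHom.comp (residue A) with
    commutes' := fun c => by
      show e.symm (residue A (algebraMap 𝒪 A c)) = residue 𝒪 c
      rw [RingEquiv.symm_apply_eq]
      exact (ResidueField.map_residue _ c).symm }⟩

lemma residue_eq_map_resMap [IsLocalHom (algebraMap 𝒪 A)] (π : A →ₐ[𝒪] ResidueField 𝒪) (a : A) :
    residue A a = ResidueField.map (algebraMap 𝒪 A) (π a) := by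
  obtain ⟨c, hc⟩ := residue_surjective (π a)
  rw [← hc, ResidueField.map_residue, ← sub_eq_zero, ← map_sub]
  exact (residue_eq_zero_iff _).mpr (sub_algebraMap_mem_maximal π hc)

lemma isLocalHom_of_resMap {B : Type} [CommRing B] [IsLocalRing B] [Algebra 𝒪 B]
    (π : A →ₐ[𝒪] ResidueField 𝒪) (πB : B →ₐ[𝒪] ResidueField 𝒪) (φ : A →ₐ[𝒪] B) :
    IsLocalHom (φ : A →+* B) where
  map_nonunit a ha := by
    refine isUnit_of_resMap_ne_zero π ?_
    rw [resMap_unique π (πB.comp φ)]
    exact (ha.map πB).ne_zero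

lemma isArtinianTestAlgebra_of_resMap [IsArtinianRing A] (π : A →ₐ[𝒪] ResidueField 𝒪) :
    GaloisRep.IsArtinianTestAlgebra 𝒪 A :=
  ⟨isLocalHom_algebraMap_of_resMap π, residue_surjective_of_resMap π, inferInstance⟩

omit [IsLocalRing A] in
lemma isLocalRing_of_resMap (π : A →ₐ[𝒪] ResidueField 𝒪) (h : ∀ a, π a ≠ 0 → IsUnit a) :
    IsLocalRing A := by
  have : Nontrivial A := π.toRingHom.domain_nontrivial
  refine IsLocalRing.of_isUnit_or_isUnit_one_sub_self fun a => ?_
  by_cases ha : π a = 0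
  · exact Or.inr (h _ (by simp [ha]))
  · exact Or.inl (h _ ha)

lemma exists_maximal_pow_eq_bot [IsArtinianRing A] : ∃ n, maximalIdeal A ^ (n + 1) = ⊥ := by
  obtain ⟨n, hn⟩ := IsArtinianRing.isNilpotent_jacobson_bot (R := A)
  rw [jacobson_eq_maximalIdeal _ bot_ne_top] at hn
  exact ⟨n, by rw [pow_succ, hn, zero_mul, Ideal.zero_eq_bot]⟩

lemma isNilpotent_of_resMap_eq_zero [IsArtinianRing A] (π : A →ₐ[𝒪] ResidueField 𝒪) {a : A}
    (h : π a = 0) : IsNilpotent a := by
  obtain ⟨n, hn⟩ := exists_maximal_pow_eq_bot (A := A)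
  exact ⟨n + 1, by
    simpa [hn] using Ideal.pow_mem_pow ((mem_maximal_iff_resMap π).mpr h) (n + 1)⟩

omit [IsLocalRing A] in
/-- An element of a finite subring which is a unit in the ambient ring is a unit. -/
lemma isUnit_subring_of_isUnit {R : Type} [CommRing R] [Finite R] (B : Subring R) (b : B)
    (h : IsUnit (b : R)) : IsUnit b := by
  have hinj : Function.Injective (fun x : B => b * x) := fun x y hxy =>
    Subtype.ext (h.mul_left_cancel (congrArg Subtype.val hxy))
  obtain ⟨x, hx⟩ := Finite.surjective_of_injective hinj 1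
  exact IsUnit.of_mul_eq_one (a := b) x hx

end Fermat.Agent.Deform
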