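import Mathlib
import Fermat.Agent.Deform.Coeff
import Fermat.Prelude.Thm_IsAdicComplete_of_module_finite

/-!
# The complete Noetherian local ring attached to a compatible system of Artinian quotients
-/

set_option autoImplicit false
set_option linter.style.haveILetI false

noncomputable section

open IsLocalRing

namespace Fermat.Agent.Deform

variable {𝒪 : Type} [CommRing 𝒪] [IsLocalRing 𝒪]
variable {P : Type} [CommRing P] [Algebra 𝒪 P]

omit [IsLocalRing 𝒪] in
/-- The truncated evaluation map `𝒪⟦X⟧ → B` for elements generating a nilpotent ideal. -/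
lemma exists_powerSeries_eval {B : Type} [CommRing B] [Algebra 𝒪 B] {m : ℕ} (y : Fin m → B)
    {n : ℕ} (hy : Ideal.span (Set.range y) ^ n = ⊥) :
    ∃ Ψ : MvPowerSeries (Fin m) 𝒪 →ₐ[𝒪] B,
      ∀ p, Ψ p = MvPolynomial.aeval y (MvPowerSeries.truncTotal n p) := by
  let f : MvPolynomial (Fin m) 𝒪 →ₐ[𝒪] B := MvPolynomial.aeval y
  have hkill : ∀ a ∈ MvPolynomial.idealOfVars (Fin m) 𝒪 ^ n, f a = 0 := by
    intro a ha
    have h1 : Ideal.map f (MvPolynomial.idealOfVars (Fin m) 𝒪) ≤ Ideal.span (Set.range y) := by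
      rw [MvPolynomial.idealOfVars, Ideal.map_span, ← Set.range_comp]
      refine Ideal.span_mono ?_
      rintro _ ⟨i, rfl⟩
      exact ⟨i, by simp [f]⟩
    have h2 := Ideal.mem_map_of_mem f ha
    rw [Ideal.map_pow] at h2
    have h3 := Ideal.pow_right_mono h1 n h2
    rwa [hy, Ideal.mem_bot] at h3
  exact ⟨(Ideal.Quotient.liftₐ _ f hkill).comp
    ((MvPowerSeries.truncTotalAlgHom (Fin m) 𝒪 n).restrictScalars 𝒪), fun p => rfl⟩

variable [IsNoetherianRing 𝒪] (πP : P →ₐ[𝒪] ResidueField 𝒪) (J : ℕ → Ideal P)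

local notation "mP" => RingHom.ker πP.toRingHom

/-- A compatible system of finite quotients `P/Jₙ` of bounded embedding dimension comes from a
complete Noetherian local ring. -/
theorem exists_complete_of_system (hJm : ∀ n, J n ≤ mP) (hmJ : ∀ n, mP ^ (n + 1) ≤ J n)
    (hJ : ∀ n, J n = J (n + 1) ⊔ mP ^ (n + 1))
    {m : ℕ} (x : Fin m → P) (hx : ∀ i, x i ∈ mP) (hgen : mP ≤ Ideal.span (Set.range x) ⊔ J 1) :
    ∃ (R : Type) (_ : CommRing R) (_ : IsLocalRing R) (_ : IsNoetherianRing R) (_ : Algebra 𝒪 R)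
      (_ : IsAdicComplete (maximalIdeal R) R) (_ : R →ₐ[𝒪] ResidueField 𝒪)
      (ψ : ∀ n, R →ₐ[𝒪] P ⧸ J n),
      (∀ n, Function.Surjective (ψ n)) ∧
      (∀ n a, a ∈ maximalIdeal R ^ (n + 1) ↔ ψ n a = 0) ∧
      (∀ n a, Ideal.Quotient.factor (show J (n + 1) ≤ J n from (hJ n).symm ▸ le_sup_left)
        (ψ (n + 1) a) = ψ n a) := by
  classical
  have hant : ∀ n, J (n + 1) ≤ J n := fun n => (hJ n).symm ▸ le_sup_left
  have hant' : ∀ i j, i ≤ j → J j ≤ J i := fun i j h => (antitone_nat_of_succ_le hant) h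
  set S := Ideal.span (Set.range x) with hS
  have hSm : S ≤ mP := Ideal.span_le.mpr fun _ ⟨i, hi⟩ => hi ▸ hx i
  have hsq : mP ≤ S ⊔ mP ^ 2 ⊔ J 0 ∧ ∀ n, mP ≤ S ⊔ mP ^ 2 ⊔ J n := by
    have h : ∀ n, mP ≤ S ⊔ mP ^ 2 ⊔ J n := by
      intro n
      refine hgen.trans (sup_le (le_sup_of_le_left le_sup_left) ?_)
      induction n with
      | zero => exact (hant 0).trans le_sup_right
      | succ n ih =>
        rcases Nat.eq_zero_or_pos n with hn | hn
        · subst hn; exact le_sup_right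
        · refine ih.trans (sup_le le_sup_left ?_)
          rw [hJ n]
          exact sup_le le_sup_right (le_sup_of_le_left (le_sup_of_le_right
            (Ideal.pow_le_pow_right (by omega))))
    exact ⟨h 0, h⟩
  have hgenn : ∀ n, mP ≤ S ⊔ J n := by
    intro n
    have key : ∀ i, mP ≤ S ⊔ mP ^ (i + 1) ⊔ J n := by
      intro i
      induction i with
      | zero => exact le_sup_of_le_left (le_sup_of_le_right (by rw [zero_add, pow_one]))
      | succ i ih =>
        refine (hsq.2 n).trans (sup_le (sup_le (le_sup_of_le_left le_sup_left) ?_) le_sup_right)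
        rw [pow_two]
        refine (Ideal.mul_mono_right ih).trans ?_
        rw [Ideal.mul_sup, Ideal.mul_sup]
        refine sup_le (sup_le ?_ ?_) (le_sup_of_le_right Ideal.mul_le_right)
        · exact le_sup_of_le_left (le_sup_of_le_left Ideal.mul_le_right)
        · exact le_sup_of_le_left (le_sup_of_le_right (le_of_eq (pow_succ' _ _).symm))
    exact (key n).trans (sup_le (sup_le le_sup_left (le_sup_of_le_right (hmJ n))) le_sup_right)
  let Λ := MvPowerSeries (Fin m) 𝒪
  let I : Ideal Λ := Ideal.span (Set.range MvPowerSeries.X)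
  let y : ∀ n, Fin m → P ⧸ J n := fun n i => Ideal.Quotient.mk _ (x i)
  have hmk : ∀ n, Ideal.span (Set.range (y n)) = Ideal.map (Ideal.Quotient.mk (J n)) mP := by
    intro n
    have h1 : Ideal.span (Set.range (y n)) = Ideal.map (Ideal.Quotient.mk (J n)) S := by
      rw [hS, Ideal.map_span, ← Set.range_comp]; rfl
    rw [h1]
    refine le_antisymm (Ideal.map_mono hSm) ((Ideal.map_mono (hgenn n)).trans ?_)
    rw [Ideal.map_sup, Ideal.map_quotient_self, sup_bot_eq]
  have hnil : ∀ n, Ideal.span (Set.range (y n)) ^ (n + 1) = ⊥ := by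
    intro n
    rw [hmk, ← Ideal.map_pow, Ideal.map_eq_bot_iff_le_ker, Ideal.mk_ker]
    exact hmJ n
  choose Ψ hΨ using fun n => exists_powerSeries_eval (𝒪 := 𝒪) (y n) (hnil n)
  have hΨC : ∀ n c, Ψ n (algebraMap 𝒪 Λ c) = algebraMap 𝒪 _ c := fun n c => (Ψ n).commutes c
  have hXj : ∀ n j, Ψ n (MvPowerSeries.X j : Λ) = y n j := by
    intro n j
    rw [hΨ]
    rcases Nat.eq_zero_or_pos n with hn | hn
    · subst hn
      have h0 : y 0 j = 0 := Ideal.Quotient.eq_zero_iff_mem.mpr
        (hmJ 0 (by rw [zero_add, pow_one]; exact hx j))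
      have ht : MvPowerSeries.truncTotal (0 + 1) (MvPowerSeries.X j : Λ) = 0 := by
        ext d
        by_cases hd : Finsupp.degree d < 0 + 1
        · rw [MvPowerSeries.coeff_truncTotal _ hd, MvPowerSeries.coeff_X, if_neg, MvPolynomial.coeff_zero]
          rintro rfl
          simp at hd
        · rw [MvPowerSeries.coeff_truncTotal_eq_zero _ (by omega), MvPolynomial.coeff_zero]
      rw [h0, ht, map_zero]
    · have : MvPowerSeries.truncTotal (n + 1) (MvPowerSeries.X j : Λ) = MvPolynomial.X j := by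
        ext d
        by_cases hd : Finsupp.degree d < n + 1
        · rw [MvPowerSeries.coeff_truncTotal _ hd, MvPowerSeries.coeff_X, MvPolynomial.coeff_X]
          simp [eq_comm]
        · rw [MvPowerSeries.coeff_truncTotal_eq_zero _ (by omega), MvPolynomial.coeff_X, if_neg]
          rintro rfl
          simp at hd
          omega
      rw [this, MvPolynomial.aeval_X]
  have hΨX : ∀ n, Ideal.map (Ψ n) I = Ideal.map (Ideal.Quotient.mk (J n)) mP := by
    intro n
    rw [← hmk, Ideal.map_span, ← Set.range_comp]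
    exact congrArg Ideal.span (congrArg Set.range (funext fun i => hXj n i))
  have hIpow : ∀ n i, Ideal.map (Ψ n) (I ^ i) = Ideal.map (Ideal.Quotient.mk (J n)) (mP ^ i) := by
    intro n i; rw [Ideal.map_pow, hΨX, Ideal.map_pow]
  have hIK : ∀ n, I ^ (n + 1) ≤ RingHom.ker (Ψ n).toRingHom := by
    intro n a ha
    have h := Ideal.mem_map_of_mem (Ψ n) ha
    rw [hIpow, Ideal.map_pow, ← hmk, hnil] at h
    exact h
  have hΨsurj : ∀ n, Function.Surjective (Ψ n) := by
    intro n
    have key : ∀ i, ∀ a : P ⧸ J n, ∃ b : Λ,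
        a - Ψ n b ∈ Ideal.map (Ideal.Quotient.mk (J n)) (mP ^ i) := by
      intro i
      induction i with
      | zero => exact fun a => ⟨0, by simp [Ideal.map_top]⟩
      | succ i ih =>
        intro a
        obtain ⟨p, rfl⟩ := Ideal.Quotient.mk_surjective a
        obtain ⟨c, hc⟩ := residue_surjective (πP p)
        have hpc : Ideal.Quotient.mk (J n) (p - algebraMap 𝒪 P c) ∈ Ideal.span (Set.range (y n)) := by
          rw [hmk]
          refine Ideal.mem_map_of_mem _ ?_
          show πP (p - algebraMap 𝒪 P c) = 0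
          rw [map_sub, πP.commutes, IsLocalRing.ResidueField.algebraMap_eq, hc, sub_self]
        obtain ⟨q, hq⟩ := Ideal.mem_span_range_iff_exists_fun.mp hpc
        choose b hb using fun j => ih (q j)
        refine ⟨algebraMap 𝒪 Λ c + ∑ j, (MvPowerSeries.X j) * b j, ?_⟩
        have hΨb : Ψ n (algebraMap 𝒪 Λ c + ∑ j, (MvPowerSeries.X j) * b j)
            = algebraMap 𝒪 _ c + ∑ j, y n j * Ψ n (b j) := by
          rw [map_add, hΨC, map_sum]
          simp only [map_mul, hXj n]
        rw [hΨb]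
        have : Ideal.Quotient.mk (J n) p - (algebraMap 𝒪 (P ⧸ J n) c + ∑ j, y n j * Ψ n (b j))
            = ∑ j, y n j * (q j - Ψ n (b j)) := by
          rw [← sub_sub]
          have h1 : Ideal.Quotient.mk (J n) p - algebraMap 𝒪 (P ⧸ J n) c
              = ∑ j, q j * y n j := by
            rw [hq, map_sub, Ideal.Quotient.mk_algebraMap]
          rw [h1, ← Finset.sum_sub_distrib]
          exact Finset.sum_congr rfl fun j _ => by ring
        rw [this, pow_succ', Ideal.map_mul]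
        exact Ideal.sum_mem _ fun j _ => Ideal.mul_mem_mul (Ideal.mem_map_of_mem _ (hx j)) (hb j)
    intro a
    obtain ⟨b, hb⟩ := key (n + 1) a
    rw [Ideal.map_pow, ← hmk, hnil, Ideal.mem_bot, sub_eq_zero] at hb
    exact ⟨b, hb.symm⟩
  -- compatibility
  have hcompat : ∀ n p, Ideal.Quotient.factor (hant n) (Ψ (n + 1) p) = Ψ n p := by
    intro n p
    rw [hΨ, hΨ]
    have h1 : ∀ q : MvPolynomial (Fin m) 𝒪, Ideal.Quotient.factor (hant n)
        (MvPolynomial.aeval (y (n + 1)) q) = MvPolynomial.aeval (y n) q := by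
      intro q
      induction q using MvPolynomial.induction_on with
      | C c => simp [Ideal.Quotient.algebraMap_eq, ← Ideal.Quotient.mk_algebraMap]
      | add q q' hq hq' => rw [map_add, map_add, map_add, hq, hq']
      | mul_X q i hq =>
        rw [map_mul, map_mul, map_mul, hq, MvPolynomial.aeval_X, MvPolynomial.aeval_X]
        simp [y]
    rw [h1, ← sub_eq_zero, ← map_sub]
    have h2 := MvPowerSeries.truncTotal_sub_truncTotal_mem_pow_idealOfVars
      (l := n + 1) (m := n + 1 + 1) (n := n + 1) (by omega) le_rfl p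
    have h3 := Ideal.mem_map_of_mem (MvPolynomial.aeval (y n) : MvPolynomial (Fin m) 𝒪 →ₐ[𝒪] _) h2
    rw [Ideal.map_pow, MvPolynomial.idealOfVars, Ideal.map_span, ← Set.range_comp] at h3
    have h4 : Set.range ((MvPolynomial.aeval (y n) : MvPolynomial (Fin m) 𝒪 →ₐ[𝒪] _) ∘
        MvPolynomial.X) = Set.range (y n) := congrArg _ (funext fun i => by simp)
    rw [h4, hnil, Ideal.mem_bot] at h3
    exact h3
  set K : ℕ → Ideal Λ := fun n => RingHom.ker (Ψ n).toRingHom with hK
  set 𝔞 : Ideal Λ := ⨅ n, K n with h𝔞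
  have hKK : ∀ n, K n ≤ K (n + 1) ⊔ I ^ (n + 1) := by
    intro n a ha
    have h1 : Ψ (n + 1) a ∈ RingHom.ker (Ideal.Quotient.factor (hant n)) := by
      rw [RingHom.mem_ker, hcompat]; exact ha
    rw [Ideal.Quotient.factor_ker, hJ n, Ideal.map_sup, Ideal.map_quotient_self, bot_sup_eq,
      ← hIpow] at h1
    have h2 : a ∈ Ideal.comap (Ψ (n + 1)) (Ideal.map (Ψ (n + 1)) (I ^ (n + 1))) := h1
    rw [Ideal.comap_map_of_surjective' _ (hΨsurj _)] at h2
    rwa [sup_comm]
  have hKant : ∀ n, K (n + 1) ≤ K n := by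
    intro n a ha
    show Ψ n a = 0
    rw [← hcompat, show Ψ (n + 1) a = 0 from ha, map_zero]
  have hKant' : ∀ i j, i ≤ j → K j ≤ K i := fun i j h => (antitone_nat_of_succ_le hKant) h
  haveI : IsAdicComplete I Λ := inferInstanceAs
    (IsAdicComplete (Ideal.span (Set.range MvPowerSeries.X) : Ideal (MvPowerSeries (Fin m) 𝒪)) _)
  have hKle : ∀ n, K n ≤ 𝔞 ⊔ I ^ (n + 1) := by
    intro n a ha
    -- successive approximation
    let nx : ∀ j, {b : Λ // b ∈ K (n + j)} → {b : Λ // b ∈ K (n + (j + 1))} := fun j b =>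
      ⟨(Submodule.mem_sup.mp (hKK (n + j) b.2)).choose,
        (Submodule.mem_sup.mp (hKK (n + j) b.2)).choose_spec.1⟩
    let seq : ∀ j, {b : Λ // b ∈ K (n + j)} := fun j =>
      Nat.rec (motive := fun j => {b : Λ // b ∈ K (n + j)}) ⟨a, ha⟩ nx j
    have hstep : ∀ j, (seq j : Λ) - seq (j + 1) ∈ I ^ (n + j + 1) := by
      intro j
      obtain ⟨z, hz, hzeq⟩ := (Submodule.mem_sup.mp (hKK (n + j) (seq j).2)).choose_spec.2
      have : (seq j : Λ) - seq (j + 1) = z := by
        show (seq j : Λ) - (Submodule.mem_sup.mp (hKK (n + j) (seq j).2)).choose = z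
        exact sub_eq_of_eq_add' hzeq.symm
      rwa [this]
    have hdiff : ∀ i d, (seq i : Λ) - seq (i + d) ∈ I ^ (n + i + 1) := by
      intro i d
      induction d with
      | zero => simp
      | succ d ih =>
        rw [← sub_add_sub_cancel _ (seq (i + d) : Λ) _]
        exact add_mem ih (Ideal.pow_le_pow_right (by omega) (hstep (i + d)))
    obtain ⟨L, hL⟩ := IsPrecomplete.prec (I := I) (M := Λ) inferInstance
      (f := fun j => (seq j : Λ)) (fun {i j} hij => by
        rw [SModEq.sub_mem, smul_eq_mul, Ideal.mul_top]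
        obtain ⟨d, rfl⟩ := Nat.exists_eq_add_of_le hij
        exact Ideal.pow_le_pow_right (by omega) (hdiff i d))
    have hL' : ∀ j, (seq j : Λ) - L ∈ I ^ j := fun j => by
      have := hL j
      rwa [SModEq.sub_mem, smul_eq_mul, Ideal.mul_top] at this
    have hLa : L ∈ 𝔞 := by
      refine Submodule.mem_iInf _ |>.mpr fun i => ?_
      have h1 : (seq (i + 1) : Λ) ∈ K i := hKant' i _ (by omega) (seq (i + 1)).2
      have h2 : (seq (i + 1) : Λ) - L ∈ K i := hIK i (hL' (i + 1))
      have := sub_mem h1 h2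
      rwa [sub_sub_cancel] at this
    refine Submodule.mem_sup.mpr ⟨L, hLa, a - L, ?_, by ring⟩
    have h1 : a - (seq (n + 1) : Λ) ∈ I ^ (n + 1) := by
      have := Ideal.pow_le_pow_right (I := I) (m := n + 1) (n := n + 0 + 1) (by omega) (hdiff 0 (n + 1))
      rw [Nat.zero_add] at this
      exact this
    have h2 := add_mem h1 (hL' (n + 1))
    rwa [sub_add_sub_cancel] at h2
  have h𝔞K : ∀ n, 𝔞 ≤ K n := fun n => iInf_le K n
  -- the residue map on level `0`
  let π0 : P ⧸ J 0 →ₐ[𝒪] ResidueField 𝒪 := Ideal.Quotient.liftₐ _ πP fun a ha => hJm 0 ha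
  haveI : Nontrivial (Λ ⧸ 𝔞) := Ideal.Quotient.nontrivial_iff.mpr fun h => by
    have h1 : (1 : Λ) ∈ K 0 := h𝔞K 0 (h ▸ trivial)
    have h2 : π0 (Ψ 0 1) = 0 := by rw [show Ψ 0 1 = 0 from h1, map_zero]
    rw [map_one, map_one] at h2
    exact one_ne_zero h2
  let mk : Λ →ₐ[𝒪] Λ ⧸ 𝔞 := Ideal.Quotient.mkₐ 𝒪 𝔞
  haveI : IsLocalRing (Λ ⧸ 𝔞) :=
    IsLocalRing.of_surjective' (Ideal.Quotient.mk 𝔞) Ideal.Quotient.mk_surjective
  let ψ : ∀ n, (Λ ⧸ 𝔞) →ₐ[𝒪] P ⧸ J n := fun n =>
    Ideal.Quotient.liftₐ 𝔞 (Ψ n) fun a ha => h𝔞K n ha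
  let πR : (Λ ⧸ 𝔞) →ₐ[𝒪] ResidueField 𝒪 := π0.comp (ψ 0)
  have hmI : maximalIdeal (Λ ⧸ 𝔞) = Ideal.map (algebraMap Λ (Λ ⧸ 𝔞)) I := by
    refine le_antisymm (fun a ha => ?_) ?_
    · obtain ⟨b, rfl⟩ := Ideal.Quotient.mk_surjective a
      have h0 := (mem_maximal_iff_resMap πR).mp ha
      obtain ⟨p, hp⟩ := Ideal.Quotient.mk_surjective (Ψ 0 b)
      have hbK : b ∈ K 0 := by
        show Ψ 0 b = 0
        rw [← hp, Ideal.Quotient.eq_zero_iff_mem]
        have hpp : πP p = 0 := by
          have : π0 (Ideal.Quotient.mk (J 0) p) = 0 := by rw [hp]; exact h0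
          exact this
        exact hmJ 0 (by rw [zero_add, pow_one]; exact hpp)
      have h := Ideal.mem_map_of_mem (Ideal.Quotient.mk 𝔞) (hKle 0 hbK)
      rw [Ideal.map_sup, Ideal.map_quotient_self, bot_sup_eq, zero_add, pow_one] at h
      exact h
    · rw [Ideal.map_le_iff_le_comap]
      intro b hb
      rw [Ideal.mem_comap, mem_maximal_iff_resMap πR]
      show π0 (Ψ 0 b) = 0
      rw [show Ψ 0 b = 0 from hIK 0 (by rw [zero_add, pow_one]; exact hb), map_zero]
  haveI : IsAdicComplete I (Λ ⧸ 𝔞) := IsAdicComplete.of_module_finite I _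
  haveI : IsAdicComplete (maximalIdeal (Λ ⧸ 𝔞)) (Λ ⧸ 𝔞) := by
    rw [hmI]; exact (IsAdicComplete.map_algebraMap_iff I (Λ ⧸ 𝔞)).mpr inferInstance
  refine ⟨Λ ⧸ 𝔞, inferInstance, inferInstance, inferInstance, inferInstance, inferInstance, πR,
    ψ, fun n a => ?_, fun n a => ?_, fun n a => ?_⟩
  · obtain ⟨b, hb⟩ := hΨsurj n a
    exact ⟨mk b, hb⟩
  · rw [hmI, ← Ideal.map_pow]
    obtain ⟨b, rfl⟩ := Ideal.Quotient.mk_surjective a
    constructor
    · intro h
      have h' : b ∈ Ideal.comap (Ideal.Quotient.mk 𝔞) (Ideal.map (Ideal.Quotient.mk 𝔞)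
          (I ^ (n + 1))) := h
      rw [Ideal.comap_map_of_surjective' _ Ideal.Quotient.mk_surjective, Ideal.mk_ker] at h'
      exact (sup_le (hIK n) (h𝔞K n) : I ^ (n + 1) ⊔ 𝔞 ≤ K n) h'
    · intro h
      have h' := Ideal.mem_map_of_mem (Ideal.Quotient.mk 𝔞) (hKle n h)
      rw [Ideal.map_sup, Ideal.map_quotient_self, bot_sup_eq] at h'
      exact h'
  · obtain ⟨b, rfl⟩ := Ideal.Quotient.mk_surjective a
    exact hcompat n b

end Fermat.Agent.Deform
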