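import Mathlib
import Fermat.Agent.Deform.Coeff

/-!
# Generators of the maximal ideal of an Artinian test algebra

* a bound on the cardinality in terms of the number of generators;
* a bound on the number of generators in terms of the homomorphisms to the dual numbers.
-/

set_option autoImplicit false
set_option linter.style.haveILetI false

noncomputable section

open IsLocalRing TrivSqZeroExt

namespace Fermat.Agent.Deform

/-- Codes for the elements of a local ring modulo the `n`-th power of a maximal ideal generated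
by `m` elements. -/
def Code (k : Type) (m : ℕ) : ℕ → Type
  | 0 => PUnit
  | n + 1 => k × (Fin m → Code k m n)

lemma finite_code (k : Type) [Finite k] (m : ℕ) : ∀ n, Finite (Code k m n)
  | 0 => inferInstanceAs (Finite PUnit)
  | n + 1 => by
    haveI := finite_code k m n
    exact inferInstanceAs (Finite (k × (Fin m → Code k m n)))

variable {𝒪 : Type} [CommRing 𝒪] [IsLocalRing 𝒪]
variable {A : Type} [CommRing A] [IsLocalRing A] [Algebra 𝒪 A]

lemma card_le_of_generators [Finite (ResidueField 𝒪)] (π : A →ₐ[𝒪] ResidueField 𝒪) {m : ℕ}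
    (y : Fin m → A) (hy : maximalIdeal A ≤ Ideal.span (Set.range y))
    (hy' : ∀ j, y j ∈ maximalIdeal A) {n : ℕ} (hn : maximalIdeal A ^ n = ⊥) :
    Nat.card A ≤ Nat.card (Code (ResidueField 𝒪) m n) := by
  choose s hs using residue_surjective (R := 𝒪)
  have key : ∀ i : ℕ, ∃ val : Code (ResidueField 𝒪) m i → A,
      ∀ a : A, ∃ t, a - val t ∈ maximalIdeal A ^ i := by
    intro i
    induction i with
    | zero => exact ⟨fun _ => 0, fun a => ⟨PUnit.unit, by simp⟩⟩
    | succ i ih =>
      obtain ⟨val, hval⟩ := ih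
      refine ⟨fun t => algebraMap 𝒪 A (s t.1) + ∑ j, y j * val (t.2 j), fun a => ?_⟩
      obtain ⟨q, hq⟩ := Ideal.mem_span_range_iff_exists_fun.mp
        (hy (sub_algebraMap_mem_maximal π (hs (π a))))
      choose t ht using fun j => hval (q j)
      refine ⟨(π a, t), ?_⟩
      have : a - (algebraMap 𝒪 A (s (π a)) + ∑ j, y j * val (t j))
          = ∑ j, y j * (q j - val (t j)) := by
        rw [← sub_sub, ← hq, ← Finset.sum_sub_distrib]
        exact Finset.sum_congr rfl fun j _ => by ring
      rw [this, pow_succ']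
      exact Ideal.sum_mem _ fun j _ => Ideal.mul_mem_mul (hy' j) (ht j)
  obtain ⟨val, hval⟩ := key n
  haveI := finite_code (ResidueField 𝒪) m n
  refine Nat.card_le_card_of_surjective val fun a => ?_
  obtain ⟨t, ht⟩ := hval a
  rw [hn, Ideal.mem_bot, sub_eq_zero] at ht
  exact ⟨t, ht.symm⟩

/-- The dual numbers over the residue field as an `𝒪`-algebra. -/
abbrev dualAlgebra (𝒪 : Type) [CommRing 𝒪] [IsLocalRing 𝒪] :
    Algebra 𝒪 (DualNumber (ResidueField 𝒪)) :=
  ((algebraMap (ResidueField 𝒪) (DualNumber (ResidueField 𝒪))).comp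
      (algebraMap 𝒪 (ResidueField 𝒪))).toAlgebra

/-- The residue map of the dual numbers. -/
def dualResMap (𝒪 : Type) [CommRing 𝒪] [IsLocalRing 𝒪] :
    letI := dualAlgebra 𝒪
    DualNumber (ResidueField 𝒪) →ₐ[𝒪] ResidueField 𝒪 :=
  letI := dualAlgebra 𝒪
  { (TrivSqZeroExt.fstHom (ResidueField 𝒪) (ResidueField 𝒪) (ResidueField 𝒪) :
      DualNumber (ResidueField 𝒪) →+* ResidueField 𝒪) with
    commutes' := fun c => by
      show fst (algebraMap (ResidueField 𝒪) (DualNumber (ResidueField 𝒪))
        (algebraMap 𝒪 (ResidueField 𝒪) c)) = algebraMap 𝒪 (ResidueField 𝒪) c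
      simp [TrivSqZeroExt.algebraMap_eq_inl] }

omit [IsLocalRing A] in
/-- A derivation along the residue map gives a homomorphism to the dual numbers. -/
lemma exists_hom_dual_of_derivation (π : A →ₐ[𝒪] ResidueField 𝒪) (D : A → ResidueField 𝒪)
    (hadd : ∀ a b, D (a + b) = D a + D b) (hmul : ∀ a b, D (a * b) = π a * D b + π b * D a)
    (hc : ∀ c, D (algebraMap 𝒪 A c) = 0) :
    letI := dualAlgebra 𝒪
    ∃ ψ : A →ₐ[𝒪] DualNumber (ResidueField 𝒪), ∀ a, snd (ψ a) = D a := by
  letI := dualAlgebra 𝒪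
  refine ⟨{ toFun := fun a => inl (π a) + inr (D a)
            map_one' := ?_
            map_mul' := fun a b => ?_
            map_zero' := ?_
            map_add' := fun a b => ?_
            commutes' := fun c => ?_ }, fun a => by simp⟩
  · have h1 : D 1 = 0 := by rw [← map_one (algebraMap 𝒪 A)]; exact hc 1
    ext <;> simp [h1]
  · ext <;> simp [hmul, mul_comm]
  · have h0 : D 0 = 0 := by rw [← map_zero (algebraMap 𝒪 A)]; exact hc 0
    ext <;> simp [h0]
  · ext <;> simp [hadd]
  · show _ = algebraMap (ResidueField 𝒪) (DualNumber (ResidueField 𝒪))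
      (algebraMap 𝒪 (ResidueField 𝒪) c)
    ext <;> simp [hc, TrivSqZeroExt.algebraMap_eq_inl]

/-- The number of generators of the maximal ideal modulo `𝔪² + (ϖ)` is bounded by the number of
homomorphisms to the dual numbers. -/
lemma exists_generators [Finite A] (π : A →ₐ[𝒪] ResidueField 𝒪) {ϖ : 𝒪}
    (hϖ : maximalIdeal 𝒪 = Ideal.span {ϖ}) {N : ℕ}
    (hN : letI := dualAlgebra 𝒪
      ∀ s : Finset (A →ₐ[𝒪] DualNumber (ResidueField 𝒪)), s.card ≤ N) :
    ∃ y : Fin N → A, (∀ i, y i ∈ maximalIdeal A) ∧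
      maximalIdeal A ≤ Ideal.span (insert (algebraMap 𝒪 A ϖ) (Set.range y)) ⊔
        maximalIdeal A ^ 2 := by
  classical
  letI := dualAlgebra 𝒪
  have hϖA : algebraMap 𝒪 A ϖ ∈ maximalIdeal A :=
    algebraMap_mem_maximal π (hϖ ▸ Ideal.mem_span_singleton_self ϖ)
  let S : Submodule (ResidueField A) (CotangentSpace A) :=
    Submodule.span _ {(maximalIdeal A).toCotangent ⟨_, hϖA⟩}
  let W := CotangentSpace A ⧸ S
  let cl : maximalIdeal A →ₗ[A] W :=
    (S.mkQ.restrictScalars A).comp (maximalIdeal A).toCotangent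
  have hcl_surj : Function.Surjective cl :=
    (Submodule.mkQ_surjective S).comp (Ideal.toCotangent_surjective _)
  have hcl_ϖ : ∀ c ∈ maximalIdeal 𝒪, ∀ h : algebraMap 𝒪 A c ∈ maximalIdeal A,
      cl ⟨algebraMap 𝒪 A c, h⟩ = 0 := by
    intro c hc h
    rw [hϖ, Ideal.mem_span_singleton'] at hc
    obtain ⟨d, rfl⟩ := hc
    have : (⟨algebraMap 𝒪 A (d * ϖ), h⟩ : maximalIdeal A)
        = algebraMap 𝒪 A d • ⟨algebraMap 𝒪 A ϖ, hϖA⟩ := Subtype.ext (by simp [Algebra.smul_def])
    rw [this, map_smul]
    refine smul_eq_zero_of_right _ ?_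
    exact (Submodule.Quotient.mk_eq_zero S).mpr (Submodule.mem_span_singleton_self _)
  have hcl_sq : ∀ (z : A) (hz : z ∈ maximalIdeal A), z ∈ maximalIdeal A ^ 2 → cl ⟨z, hz⟩ = 0 := by
    intro z hz hz2
    show S.mkQ ((maximalIdeal A).toCotangent ⟨z, hz⟩) = 0
    rw [(maximalIdeal A).toCotangent_eq_zero _ |>.mpr hz2, map_zero]
  -- the transfer between the two residue fields
  obtain ⟨ι, hι⟩ : ∃ ι : ResidueField A →+* ResidueField 𝒪, ∀ a, ι (residue A a) = π a :=
    ⟨Ideal.Quotient.lift _ π.toRingHom fun a ha => (mem_maximal_iff_resMap π).mp ha,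
      fun _ => rfl⟩
  have : Finite (CotangentSpace A) :=
    Finite.of_surjective _ (maximalIdeal A).toCotangent_surjective
  let bW := Module.finBasis (ResidueField A) W
  set d := Module.finrank (ResidueField A) W
  choose s hs using residue_surjective (R := 𝒪)
  have hs' : ∀ a, a - algebraMap 𝒪 A (s (π a)) ∈ maximalIdeal A :=
    fun a => sub_algebraMap_mem_maximal π (hs (π a))
  let D : Fin d → A → ResidueField 𝒪 := fun i a =>
    ι (bW.coord i (cl ⟨a - algebraMap 𝒪 A (s (π a)), hs' a⟩))
  have hG : ∀ i a c, (h : residue 𝒪 c = π a) →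
      D i a = ι (bW.coord i (cl ⟨a - algebraMap 𝒪 A c, sub_algebraMap_mem_maximal π h⟩)) := by
    intro i a c h
    have h0 : c - s (π a) ∈ maximalIdeal 𝒪 := by
      rw [← residue_eq_zero_iff, map_sub, h, hs, sub_self]
    have h0' := algebraMap_mem_maximal π h0
    have : (⟨a - algebraMap 𝒪 A (s (π a)), hs' a⟩ : maximalIdeal A)
        = ⟨a - algebraMap 𝒪 A c, sub_algebraMap_mem_maximal π h⟩ +
          ⟨algebraMap 𝒪 A (c - s (π a)), h0'⟩ :=
      Subtype.ext (by simp)
    simp only [D, this, map_add, hcl_ϖ _ h0, map_zero, add_zero]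
  have hadd : ∀ i a b, D i (a + b) = D i a + D i b := by
    intro i a b
    rw [hG i (a + b) (s (π a) + s (π b)) (by simp [hs]), hG i a _ (hs _), hG i b _ (hs _)]
    simp only [← map_add]
    refine congrArg (fun v => ι (bW.coord i (cl v))) ?_
    exact Subtype.ext (by simp; ring)
  have hzero : ∀ i c, D i (algebraMap 𝒪 A c) = 0 := by
    intro i c
    rw [hG i _ c (by simp)]
    have : (⟨algebraMap 𝒪 A c - algebraMap 𝒪 A c, sub_algebraMap_mem_maximal π (by simp)⟩ :
        maximalIdeal A) = 0 := Subtype.ext (sub_self _)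
    rw [this, map_zero, map_zero, map_zero]
  have hmul : ∀ i a b, D i (a * b) = π a * D i b + π b * D i a := by
    intro i a b
    set c := s (π a)
    set e := s (π b)
    have hc : residue 𝒪 c = π a := hs _
    have he : residue 𝒪 e = π b := hs _
    set za : maximalIdeal A := ⟨a - algebraMap 𝒪 A c, sub_algebraMap_mem_maximal π hc⟩
    set zb : maximalIdeal A := ⟨b - algebraMap 𝒪 A e, sub_algebraMap_mem_maximal π he⟩
    have hsplit : (⟨a * b - algebraMap 𝒪 A (c * e),
        sub_algebraMap_mem_maximal π (by simp [hc, he])⟩ : maximalIdeal A)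
        = ⟨(za : A) * zb, Ideal.mul_mem_left _ _ zb.2⟩ + algebraMap 𝒪 A c • zb +
          algebraMap 𝒪 A e • za :=
      Subtype.ext (by simp [za, zb, Algebra.smul_def]; ring)
    have hsm : ∀ (x : A) (z : maximalIdeal A),
        ι (bW.coord i (cl (x • z))) = π x * ι (bW.coord i (cl z)) := by
      intro x z
      rw [map_smul, ← IsScalarTower.algebraMap_smul (ResidueField A) x, map_smul, smul_eq_mul,
        map_mul]
      exact congrArg (· * _) (hι x)
    rw [hG i (a * b) (c * e) (by simp [hc, he]), hsplit, map_add, map_add, map_add, map_add,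
      map_add, map_add, hsm, hsm, hcl_sq _ _ (by rw [pow_two]; exact Ideal.mul_mem_mul za.2 zb.2),
      map_zero, map_zero, zero_add, hG i a c hc, hG i b e he]
    simp [hc, he, za, zb]
  choose ψ hψ using fun i => exists_hom_dual_of_derivation π (D i) (hadd i) (hmul i) (hzero i)
  choose z hz using fun i => hcl_surj (bW i)
  have hDz : ∀ i j, D i (z j : A) = if j = i then 1 else 0 := by
    intro i j
    have h0 : residue 𝒪 0 = π (z j : A) := by
      rw [map_zero, (mem_maximal_iff_resMap π).mp (z j).2]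
    rw [hG i _ 0 h0]
    have : (⟨(z j : A) - algebraMap 𝒪 A 0, sub_algebraMap_mem_maximal π h0⟩ : maximalIdeal A)
        = z j := Subtype.ext (by simp)
    rw [this, hz, Module.Basis.coord_apply, bW.repr_self, Finsupp.single_apply]
    split <;> simp
  have hinj : Function.Injective ψ := by
    intro i j hij
    have := congrArg (fun f : A →ₐ[𝒪] DualNumber (ResidueField 𝒪) => snd (f (z i))) hij
    simp only [hψ, hDz, if_pos rfl] at this
    by_contra hne
    rw [if_neg hne] at this
    exact one_ne_zero this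
  have hdN : d ≤ N := by
    have := hN (Finset.univ.map ⟨ψ, hinj⟩)
    simpa using this
  let y : Fin N → A := fun i => if h : (i : ℕ) < d then (z ⟨i, h⟩ : A) else 0
  refine ⟨y, fun i => ?_, fun a ha => ?_⟩
  · simp only [y]; split
    · exact (z _).2
    · exact zero_mem _
  · let c := bW.repr (cl ⟨a, ha⟩)
    choose l hl using residue_surjective (R := A)
    have h1 : cl (⟨a, ha⟩ - ∑ i, l (c i) • z i) = 0 := by
      rw [map_sub, map_sum, sub_eq_zero]
      refine (bW.sum_repr (cl ⟨a, ha⟩)).symm.trans (Finset.sum_congr rfl fun i _ => ?_)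
      rw [map_smul, hz, ← IsScalarTower.algebraMap_smul (ResidueField A) (l (c i))]
      congr 1
      exact (hl _).symm
    have h2 := (Submodule.Quotient.mk_eq_zero S).mp h1
    obtain ⟨t, ht⟩ := Submodule.mem_span_singleton.mp h2
    obtain ⟨t', rfl⟩ := residue_surjective t
    have h3 : (maximalIdeal A).toCotangent (t' • ⟨algebraMap 𝒪 A ϖ, hϖA⟩)
        = (maximalIdeal A).toCotangent (⟨a, ha⟩ - ∑ i, l (c i) • z i) := by
      rw [← ht, map_smul, ← IsScalarTower.algebraMap_smul (ResidueField A) t']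
      rfl
    rw [Ideal.toCotangent_eq] at h3
    have hgen : t' * algebraMap 𝒪 A ϖ + ∑ i, l (c i) * (z i : A) ∈
        Ideal.span (insert (algebraMap 𝒪 A ϖ) (Set.range y)) := by
      refine add_mem (Ideal.mul_mem_left _ _ (Ideal.subset_span (Or.inl rfl)))
        (Ideal.sum_mem _ fun i _ => Ideal.mul_mem_left _ _ (Ideal.subset_span (Or.inr ?_)))
      exact ⟨⟨i, lt_of_lt_of_le i.2 hdN⟩, by simp [y]⟩
    refine Submodule.mem_sup.mpr ⟨_, hgen, -((t' * algebraMap 𝒪 A ϖ) -
      (a - ∑ i, l (c i) * (z i : A))), neg_mem ?_, by ring⟩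
    simpa using h3

end Fermat.Agent.Deform
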