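import Mathlib
import Fermat.Agent.Deform.AbsIrred
import Fermat.Agent.Deform.Generators

/-!
# Lifts of a residual matrix representation and their trace ideals
-/

set_option autoImplicit false
set_option linter.style.haveILetI false

noncomputable section

open IsLocalRing

namespace Fermat.Agent.Deform

/-- Deformation-condition predicates. -/
abbrev CondType (𝒪 : Type) [CommRing 𝒪] : Type 1 :=
  ∀ ⦃A : Type⦄ [CommRing A] [IsLocalRing A] [Algebra 𝒪 A], GaloisRepAdic A → Prop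

variable {𝒪 : Type} [CommRing 𝒪] [IsLocalRing 𝒪]

/-- A matrix lift of `rbar` to `A` satisfying `𝒟`. -/
structure IsLift (rbar : GalQ →* Mat2 (ResidueField 𝒪)) (𝒟 : CondType 𝒪) {A : Type} [CommRing A]
    [IsLocalRing A] [Algebra 𝒪 A] (π : A →ₐ[𝒪] ResidueField 𝒪) (r : GalQ →* Mat2 A) : Prop where
  red : ∀ g, (r g).map π = rbar g
  cts : MatCts r
  cond : 𝒟 (ofMatrix r cts)

variable {rbar : GalQ →* Mat2 (ResidueField 𝒪)} {𝒟 : CondType 𝒪}

/-- The trace map from the polynomial ring on the Galois group. -/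
def traceHom (𝒪 : Type) [CommRing 𝒪] {A : Type} [CommRing A] [Algebra 𝒪 A]
    (r : GalQ →* Mat2 A) : MvPolynomial GalQ 𝒪 →ₐ[𝒪] A :=
  MvPolynomial.aeval fun g => (r g).trace

omit [IsLocalRing 𝒪] in
lemma trace_map_ringHom {A B : Type} [CommRing A] [CommRing B] (f : A →+* B) (M : Mat2 A) :
    (M.map f).trace = f M.trace := by
  simp [Matrix.trace, Matrix.map_apply]

namespace IsLift

variable {A B : Type} [CommRing A] [IsLocalRing A] [Algebra 𝒪 A]
  [CommRing B] [IsLocalRing B] [Algebra 𝒪 B]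
variable {π : A →ₐ[𝒪] ResidueField 𝒪} {r : GalQ →* Mat2 A}

lemma resMap_trace (h : IsLift rbar 𝒟 π r) (g : GalQ) : π (r g).trace = (rbar g).trace := by
  rw [← h.red g]
  exact (trace_map_ringHom (π : A →+* ResidueField 𝒪) (r g)).symm

lemma resMap_traceHom (h : IsLift rbar 𝒟 π r) :
    π.comp (traceHom 𝒪 r) = traceHom 𝒪 rbar := by
  refine MvPolynomial.algHom_ext fun g => ?_
  simp [traceHom, h.resMap_trace]

lemma map (h𝒟 : GaloisRep.IsDeformationCondition 𝒪 𝒟) [IsArtinianRing A] [IsArtinianRing B]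
    (h : IsLift rbar 𝒟 π r) (πB : B →ₐ[𝒪] ResidueField 𝒪) (ψ : A →ₐ[𝒪] B) :
    IsLift rbar 𝒟 πB ((mapHom (ψ : A →+* B)).comp r) := by
  have hψ := isLocalHom_of_resMap π πB ψ
  refine ⟨fun g => ?_, matCts_map _ hψ h.cts, ?_⟩
  · rw [← h.red g]
    ext i j
    show πB (ψ (r g i j)) = π (r g i j)
    rw [resMap_unique π (πB.comp ψ)]; rfl
  · exact h𝒟.of_isEquiv (isArtinianTestAlgebra_of_resMap πB)
      (isEquiv_baseChange_ofMatrix _ hψ h.cts)
      (h𝒟.baseChangeAlong (isArtinianTestAlgebra_of_resMap π)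
        (isArtinianTestAlgebra_of_resMap πB) ψ hψ h.cond)

lemma conj (h𝒟 : GaloisRep.IsDeformationCondition 𝒪 𝒟) [IsArtinianRing A]
    (h : IsLift rbar 𝒟 π r) (U : (Mat2 A)ˣ) (hU : (U : Mat2 A).map π = 1)
    {r' : GalQ →* Mat2 A} (hr' : ∀ g, r g * U = U * r' g) : IsLift rbar 𝒟 π r' := by
  have hm := (hasMatrix_ofMatrix r h.cts).conj U hr'
  refine ⟨fun g => ?_, hm.matCts, ?_⟩
  · have h1 := congrArg (π : A →+* ResidueField 𝒪).mapMatrix (hr' g)
    rw [map_mul, map_mul, show (π : A →+* ResidueField 𝒪).mapMatrix (U : Mat2 A) = 1 from hU,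
      mul_one, one_mul] at h1
    rw [← h.red g]
    exact h1.symm
  · exact h𝒟.of_isEquiv (isArtinianTestAlgebra_of_resMap π)
      (hm.isEquiv (hasMatrix_ofMatrix _ _)) h.cond

/-- The conjugate representation. -/
lemma exists_conj_hom {A : Type} [CommRing A] (r : GalQ →* Mat2 A) (U : (Mat2 A)ˣ) :
    ∃ r' : GalQ →* Mat2 A, (∀ g, r g * U = U * r' g) ∧ (∀ g, r' g = (↑U⁻¹ : Mat2 A) * r g * U) ∧
      ∀ g, (r' g).trace = (r g).trace :=
  ⟨{ toFun := fun g => (↑U⁻¹ : Mat2 A) * r g * U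
     map_one' := by simp
     map_mul' := fun a b => by simp [mul_assoc] },
    fun g => by simp [mul_assoc], fun g => rfl, fun g => Matrix.trace_units_conj' U (r g)⟩

omit [IsLocalRing B] in
/-- Two lifts with the same traces are strictly conjugate. -/
lemma exists_conj (hnd : TraceNondeg rbar) (h : IsLift rbar 𝒟 π r) {r' : GalQ →* Mat2 A}
    (h' : ∀ g, (r' g).map π = rbar g) (htr : ∀ g, (r g).trace = (r' g).trace) :
    ∃ U : (Mat2 A)ˣ, (U : Mat2 A).map π = 1 ∧ ∀ g, r' g * U = U * r g :=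
  exists_conj_of_trace_eq hnd (π := (π : A →+* ResidueField 𝒪))
    (fun _ ha => isUnit_of_resMap_ne_zero π ha) h.red h' htr

lemma exists_eq_one [IsArtinianRing A] (h : IsLift rbar 𝒟 π r) :
    ∃ L : IntermediateField ℚ (AlgebraicClosure ℚ), FiniteDimensional ℚ L ∧
      ∀ σ : GalQ, (∀ x ∈ L, σ x = x) → r σ = 1 := by
  obtain ⟨n, hn⟩ := exists_maximal_pow_eq_bot (A := A)
  obtain ⟨L, hL, hr⟩ := h.cts (n + 1)
  refine ⟨L, hL, fun σ hσ => Matrix.ext fun i j => ?_⟩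
  have := hr σ hσ i j
  rw [hn, Ideal.mem_bot, Matrix.sub_apply, sub_eq_zero] at this
  exact this

end IsLift

lemma matCts_of_eq_one {A : Type} [CommRing A] [IsLocalRing A] {r : GalQ →* Mat2 A}
    (h : ∃ L : IntermediateField ℚ (AlgebraicClosure ℚ), FiniteDimensional ℚ L ∧
      ∀ σ : GalQ, (∀ x ∈ L, σ x = x) → r σ = 1) : MatCts r := by
  obtain ⟨L, hL, hr⟩ := h
  exact fun n => ⟨L, hL, fun σ hσ i j => by simp [hr σ hσ]⟩

/-- Descent to a subalgebra containing the traces. -/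
lemma IsLift.descend (h𝒟 : GaloisRep.IsDeformationCondition 𝒪 𝒟) (hnd : TraceNondeg rbar)
    {A B : Type} [CommRing A] [IsLocalRing A] [Algebra 𝒪 A] [Finite A]
    [CommRing B] [IsLocalRing B] [Algebra 𝒪 B] [Finite B]
    {π : A →ₐ[𝒪] ResidueField 𝒪} {r : GalQ →* Mat2 A} (h : IsLift rbar 𝒟 π r)
    (ι : B →ₐ[𝒪] A) (hι : Function.Injective ι) (htr : ∀ g, ∃ b, ι b = (r g).trace) :
    ∃ r' : GalQ →* Mat2 B, IsLift rbar 𝒟 (π.comp ι) r' ∧
      ∀ g, ι (r' g).trace = (r g).trace := by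
  obtain ⟨U, hU, hmem⟩ := exists_conj_mem_subring hnd (π := (π : A →+* ResidueField 𝒪))
    (fun _ ha => isUnit_of_resMap_ne_zero π ha)
    (fun _ ha => isNilpotent_of_resMap_eq_zero π ha) h.red (ι : B →+* A).range
    (fun b hb => isUnit_subring_of_isUnit _ b (isUnit_of_resMap_ne_zero π hb))
    (fun x => by
      obtain ⟨c, rfl⟩ := IsLocalRing.residue_surjective x
      exact ⟨⟨algebraMap 𝒪 A c, algebraMap 𝒪 B c, ι.commutes c⟩, π.commutes c⟩)
    (fun g => htr g)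
  obtain ⟨r₁, hr₁, hr₁', hr₁tr⟩ := IsLift.exists_conj_hom r U
  have hmem₁ : ∀ g i j, ∃ b, ι b = r₁ g i j := fun g i j => by rw [hr₁']; exact hmem g i j
  choose f hf using hmem₁
  have hinj : Function.Injective (mapHom (ι : B →+* A)) := fun M N hMN =>
    Matrix.ext fun i j => hι (congrFun (congrFun hMN i) j)
  let r₂ : GalQ →* Mat2 B :=
    { toFun := fun g => Matrix.of (f g)
      map_one' := hinj (by
        rw [map_one, ← map_one r₁]
        exact Matrix.ext fun i j => hf 1 i j)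
      map_mul' := fun a b => hinj (by
        have e : ∀ g, mapHom (ι : B →+* A) (Matrix.of (f g)) = r₁ g :=
          fun g => Matrix.ext fun i j => hf g i j
        rw [map_mul, e, e, e, map_mul]) }
  have he : (mapHom (ι : B →+* A)).comp r₂ = r₁ :=
    MonoidHom.ext fun g => Matrix.ext fun i j => hf g i j
  have h₁ := h.conj h𝒟 U hU hr₁
  have hc : MatCts r₂ := by
    refine matCts_of_eq_one ?_
    obtain ⟨L, hL, hr⟩ := h₁.exists_eq_one
    refine ⟨L, hL, fun σ hσ => hinj ?_⟩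
    rw [map_one]
    exact (DFunLike.congr_fun he σ).trans (hr σ hσ)
  have hloc := isLocalHom_of_resMap (π.comp ι) π ι
  refine ⟨r₂, ⟨fun g => ?_, hc, ?_⟩, fun g => ?_⟩
  · rw [← h₁.red g, ← he]
    rfl
  · refine h𝒟.of_baseChangeAlong_injective (isArtinianTestAlgebra_of_resMap (π.comp ι))
      (isArtinianTestAlgebra_of_resMap π) ι hloc hι ?_
    refine h𝒟.of_isEquiv (isArtinianTestAlgebra_of_resMap π) ?_ h₁.cond
    refine (hasMatrix_ofMatrix r₁ h₁.cts).isEquiv ?_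
    rw [← he]
    exact (hasMatrix_ofMatrix r₂ hc).baseChangeAlong _ hloc
  · rw [← hr₁tr g, ← he]
    exact (trace_map_ringHom (ι : B →+* A) (r₂ g)).symm

/-- `I` is the trace ideal of some lift to a finite test algebra. -/
def IsTraceIdeal (rbar : GalQ →* Mat2 (ResidueField 𝒪)) (𝒟 : CondType 𝒪)
    (I : Ideal (MvPolynomial GalQ 𝒪)) : Prop :=
  ∃ (A : Type) (_ : CommRing A) (_ : IsLocalRing A) (_ : Algebra 𝒪 A) (_ : Finite A)
    (π : A →ₐ[𝒪] ResidueField 𝒪) (r : GalQ →* Mat2 A),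
    IsLift rbar 𝒟 π r ∧ RingHom.ker (traceHom 𝒪 r).toRingHom = I

variable {I : Ideal (MvPolynomial GalQ 𝒪)}

lemma IsLift.isTraceIdeal {A : Type} [CommRing A] [IsLocalRing A] [Algebra 𝒪 A] [Finite A]
    {π : A →ₐ[𝒪] ResidueField 𝒪} {r : GalQ →* Mat2 A} (h : IsLift rbar 𝒟 π r) :
    IsTraceIdeal rbar 𝒟 (RingHom.ker (traceHom 𝒪 r).toRingHom) :=
  ⟨A, inferInstance, inferInstance, inferInstance, inferInstance, π, r, h, rfl⟩

lemma IsTraceIdeal.le (h : IsTraceIdeal rbar 𝒟 I) :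
    I ≤ RingHom.ker (traceHom 𝒪 rbar).toRingHom := by
  obtain ⟨A, _, _, _, _, π, r, h, rfl⟩ := h
  intro a ha
  show traceHom 𝒪 rbar a = 0
  rw [← h.resMap_traceHom, AlgHom.comp_apply, show traceHom 𝒪 r a = 0 from ha, map_zero]

/-- A trace ideal is realised by a lift over its own quotient. -/
lemma IsTraceIdeal.realize (h𝒟 : GaloisRep.IsDeformationCondition 𝒪 𝒟) (hnd : TraceNondeg rbar)
    (h : IsTraceIdeal rbar 𝒟 I) :
    ∃ (_ : IsLocalRing (MvPolynomial GalQ 𝒪 ⧸ I)) (_ : Finite (MvPolynomial GalQ 𝒪 ⧸ I))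
      (π : (MvPolynomial GalQ 𝒪 ⧸ I) →ₐ[𝒪] ResidueField 𝒪)
      (r : GalQ →* Mat2 (MvPolynomial GalQ 𝒪 ⧸ I)),
      IsLift rbar 𝒟 π r ∧ ∀ g, (r g).trace = Ideal.Quotient.mk I (MvPolynomial.X g) := by
  obtain ⟨A, _, _, _, _, π, r, h, rfl⟩ := h
  let ι : (MvPolynomial GalQ 𝒪 ⧸ RingHom.ker (traceHom 𝒪 r).toRingHom) →ₐ[𝒪] A :=
    Ideal.Quotient.liftₐ _ (traceHom 𝒪 r) fun a ha => ha
  have hι : Function.Injective ι := by
    rw [injective_iff_map_eq_zero]
    intro a ha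
    obtain ⟨p, rfl⟩ := Ideal.Quotient.mk_surjective a
    exact Ideal.Quotient.eq_zero_iff_mem.mpr ha
  have hfin := Finite.of_injective ι hι
  have hloc : IsLocalRing (MvPolynomial GalQ 𝒪 ⧸ RingHom.ker (traceHom 𝒪 r).toRingHom) := by
    refine isLocalRing_of_resMap (π.comp ι) fun a ha => ?_
    have hu : IsUnit (ι a) := isUnit_of_resMap_ne_zero π ha
    have hinj : Function.Injective (fun x => a * x) := fun x y hxy =>
      hι (hu.mul_left_cancel (by
        have e := congrArg ι hxy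
        rwa [map_mul, map_mul] at e))
    obtain ⟨x, hx⟩ := Finite.surjective_of_injective hinj 1
    exact IsUnit.of_mul_eq_one (a := a) x hx
  have hX : ∀ g, ι (Ideal.Quotient.mk _ (MvPolynomial.X g)) = (r g).trace :=
    fun g => by
      show traceHom 𝒪 r (MvPolynomial.X g) = _
      simp [traceHom]
  obtain ⟨r', hr', htr'⟩ := h.descend h𝒟 hnd ι hι fun g => ⟨_, hX g⟩
  exact ⟨hloc, hfin, π.comp ι, r', hr', fun g => hι ((htr' g).trans (hX g).symm)⟩

omit [IsLocalRing 𝒪] in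
lemma traceHom_eq_mkₐ {J : Ideal (MvPolynomial GalQ 𝒪)}
    {r : GalQ →* Mat2 (MvPolynomial GalQ 𝒪 ⧸ J)}
    (h : ∀ g, (r g).trace = Ideal.Quotient.mk J (MvPolynomial.X g)) :
    traceHom 𝒪 r = Ideal.Quotient.mkₐ 𝒪 J :=
  MvPolynomial.algHom_ext fun g => by simp [traceHom, h]

lemma IsTraceIdeal.mono (h𝒟 : GaloisRep.IsDeformationCondition 𝒪 𝒟) (hnd : TraceNondeg rbar)
    (h : IsTraceIdeal rbar 𝒟 I) {I' : Ideal (MvPolynomial GalQ 𝒪)} (hII' : I ≤ I')
    (hI' : I' ≤ RingHom.ker (traceHom 𝒪 rbar).toRingHom) : IsTraceIdeal rbar 𝒟 I' := by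
  obtain ⟨_, _, π, r, hr, htr⟩ := h.realize h𝒟 hnd
  let q : (MvPolynomial GalQ 𝒪 ⧸ I) →ₐ[𝒪] (MvPolynomial GalQ 𝒪 ⧸ I') :=
    Ideal.Quotient.factorₐ 𝒪 hII'
  have hq : Function.Surjective q := Ideal.Quotient.factor_surjective hII'
  let π' : (MvPolynomial GalQ 𝒪 ⧸ I') →ₐ[𝒪] ResidueField 𝒪 :=
    Ideal.Quotient.liftₐ _ (traceHom 𝒪 rbar) fun a ha => hI' ha
  haveI : Nontrivial (MvPolynomial GalQ 𝒪 ⧸ I') := π'.toRingHom.domain_nontrivial
  haveI : IsLocalRing (MvPolynomial GalQ 𝒪 ⧸ I') := IsLocalRing.of_surjective' q.toRingHom hq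
  haveI : Finite (MvPolynomial GalQ 𝒪 ⧸ I') := Finite.of_surjective q hq
  have h' := hr.map h𝒟 π' q
  have : traceHom 𝒪 ((mapHom (q : (MvPolynomial GalQ 𝒪 ⧸ I) →+*
      (MvPolynomial GalQ 𝒪 ⧸ I'))).comp r) = Ideal.Quotient.mkₐ 𝒪 I' :=
    traceHom_eq_mkₐ fun g => by
      rw [MonoidHom.comp_apply, mapHom_apply, trace_map_ringHom, htr]; rfl
  have h'' := h'.isTraceIdeal
  rw [this] at h''
  rwa [show RingHom.ker (Ideal.Quotient.mkₐ 𝒪 I').toRingHom = I' from Ideal.mk_ker] at h''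

lemma IsTraceIdeal.inf (h𝒟 : GaloisRep.IsDeformationCondition 𝒪 𝒟)
    [Finite (ResidueField 𝒪)] {I' : Ideal (MvPolynomial GalQ 𝒪)}
    (h : IsTraceIdeal rbar 𝒟 I) (h' : IsTraceIdeal rbar 𝒟 I') :
    IsTraceIdeal rbar 𝒟 (I ⊓ I') := by
  obtain ⟨A, _, _, _, _, πA, rA, hA, rfl⟩ := h
  obtain ⟨B, _, _, _, _, πB, rB, hB, rfl⟩ := h'
  let Q : Subalgebra 𝒪 (A × B) :=
    { carrier := {x | πA x.1 = πB x.2}
      mul_mem' := fun {x y} hx hy => by simp_all
      add_mem' := fun {x y} hx hy => by simp_all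
      algebraMap_mem' := fun c => by
        show πA (algebraMap 𝒪 A c) = πB (algebraMap 𝒪 B c)
        simp }
  let pA : Q →ₐ[𝒪] A := (AlgHom.fst 𝒪 A B).comp Q.val
  let pB : Q →ₐ[𝒪] B := (AlgHom.snd 𝒪 A B).comp Q.val
  let π : Q →ₐ[𝒪] ResidueField 𝒪 := πA.comp pA
  have hπ : ∀ x : Q, πB (pB x) = π x := fun x => (x.2).symm
  haveI : Finite Q := Finite.of_injective _ Subtype.val_injective
  haveI : IsLocalRing Q := by
    refine isLocalRing_of_resMap π fun a ha => ?_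
    have hu : IsUnit (a : A × B) := by
      rw [Prod.isUnit_iff]
      exact ⟨isUnit_of_resMap_ne_zero πA ha, isUnit_of_resMap_ne_zero πB (hπ a ▸ ha :)⟩
    exact isUnit_subring_of_isUnit Q.toSubring a hu
  have hmem : ∀ g i j, ((rA g i j, rB g i j) : A × B) ∈ Q := fun g i j => by
    show πA (rA g i j) = πB (rB g i j)
    exact (congrFun (congrFun (hA.red g) i) j).trans (congrFun (congrFun (hB.red g) i) j).symm
  have hinj : ∀ M N : Mat2 Q, M.map pA = N.map pA → M.map pB = N.map pB → M = N :=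
    fun M N h1 h2 => Matrix.ext fun i j => Subtype.ext (Prod.ext
      (congrFun (congrFun h1 i) j) (congrFun (congrFun h2 i) j))
  let rQ : GalQ →* Mat2 Q :=
    { toFun := fun g => Matrix.of fun i j => ⟨_, hmem g i j⟩
      map_one' := by
        refine hinj _ _ ?_ ?_
        · rw [Matrix.map_one _ (map_zero pA) (map_one pA), ← map_one rA]; rfl
        · rw [Matrix.map_one _ (map_zero pB) (map_one pB), ← map_one rB]; rfl
      map_mul' := fun a b => by
        refine hinj _ _ ?_ ?_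
        · rw [Matrix.map_mul (f := pA)]
          exact map_mul rA a b
        · rw [Matrix.map_mul (f := pB)]
          exact map_mul rB a b }
  have eA : (mapHom (pA : Q →+* A)).comp rQ = rA := rfl
  have eB : (mapHom (pB : Q →+* B)).comp rQ = rB := rfl
  have hc : MatCts rQ := by
    refine matCts_of_eq_one ?_
    obtain ⟨L, hL, hr⟩ := hA.exists_eq_one
    obtain ⟨L', hL', hr'⟩ := hB.exists_eq_one
    refine ⟨L ⊔ L', inferInstance, fun σ hσ => hinj _ _ ?_ ?_⟩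
    · rw [Matrix.map_one _ (map_zero pA) (map_one pA)]
      exact hr σ fun x hx => hσ x ((le_sup_left : L ≤ L ⊔ L') hx)
    · rw [Matrix.map_one _ (map_zero pB) (map_one pB)]
      exact hr' σ fun x hx => hσ x ((le_sup_right : L' ≤ L ⊔ L') hx)
  have hlA := isLocalHom_of_resMap π πA pA
  have hlB := isLocalHom_of_resMap π πB pB
  have hcond : 𝒟 (ofMatrix rQ hc) := by
    refine h𝒟.of_fibreProduct (isArtinianTestAlgebra_of_resMap πA)
      (isArtinianTestAlgebra_of_resMap πB)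
      (isArtinianTestAlgebra_of_resMap (AlgHom.id 𝒪 (ResidueField 𝒪)))
      (isArtinianTestAlgebra_of_resMap π) πA πB pA pB hlA hlB
      (AlgHom.ext fun x => x.2)
      (fun x y hxy => Subtype.ext hxy)
      (fun a b hab => ⟨⟨(a, b), hab⟩, rfl, rfl⟩) ?_ ?_
    · refine h𝒟.of_isEquiv (isArtinianTestAlgebra_of_resMap πA) ?_ hA.cond
      exact (hasMatrix_ofMatrix rA hA.cts).isEquiv
        (eA ▸ (hasMatrix_ofMatrix rQ hc).baseChangeAlong _ hlA)
    · refine h𝒟.of_isEquiv (isArtinianTestAlgebra_of_resMap πB) ?_ hB.cond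
      exact (hasMatrix_ofMatrix rB hB.cts).isEquiv
        (eB ▸ (hasMatrix_ofMatrix rQ hc).baseChangeAlong _ hlB)
  have hQ : IsLift rbar 𝒟 π rQ := ⟨fun g => hA.red g, hc, hcond⟩
  have hk := hQ.isTraceIdeal
  have e1 : pA.comp (traceHom 𝒪 rQ) = traceHom 𝒪 rA :=
    MvPolynomial.algHom_ext fun g => by
      simp [traceHom, Matrix.trace, map_sum, rQ, pA]
  have e2 : pB.comp (traceHom 𝒪 rQ) = traceHom 𝒪 rB :=
    MvPolynomial.algHom_ext fun g => by
      simp [traceHom, Matrix.trace, map_sum, rQ, pB]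
  convert hk using 1
  ext a
  simp only [Ideal.mem_inf, RingHom.mem_ker, AlgHom.toRingHom_eq_coe, RingHom.coe_coe]
  rw [← e1, ← e2, AlgHom.comp_apply, AlgHom.comp_apply]
  refine ⟨fun h => Subtype.ext (Prod.ext h.1 h.2), fun h => by simp [h]⟩

lemma isTraceIdeal_ker [Finite (ResidueField 𝒪)] {ρbar : ResidualGaloisRep (ResidueField 𝒪)}
    (h𝒟 : GaloisRep.IsDeformationCondition 𝒪 𝒟) (hm : RHasMatrix ρbar rbar)
    (hbar : 𝒟 (GaloisRepAdic.ofResidualGaloisRep ρbar)) :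
    IsTraceIdeal rbar 𝒟 (RingHom.ker (traceHom 𝒪 rbar).toRingHom) := by
  have hm' : HasMatrix (GaloisRepAdic.ofResidualGaloisRep ρbar) rbar := hm
  have : IsLift rbar 𝒟 (AlgHom.id 𝒪 (ResidueField 𝒪)) rbar :=
    ⟨fun g => Matrix.ext fun i j => rfl, hm'.matCts,
      h𝒟.of_isEquiv (isArtinianTestAlgebra_of_resMap (AlgHom.id 𝒪 _))
        (hm'.isEquiv (hasMatrix_ofMatrix _ _)) hbar⟩
  exact this.isTraceIdeal

/-- The tangent space bound. -/
lemma exists_tangent_bound (h𝒟 : GaloisRep.IsDeformationCondition 𝒪 𝒟)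
    {ρbar : ResidualGaloisRep (ResidueField 𝒪)} (hm : RHasMatrix ρbar rbar)
    (hfin : GaloisRep.TangentFinite 𝒪 ρbar 𝒟) :
    letI := dualAlgebra 𝒪
    ∃ N : ℕ, ∀ {A : Type} [CommRing A] [IsLocalRing A] [Algebra 𝒪 A] [Finite A]
      (π : A →ₐ[𝒪] ResidueField 𝒪) (r : GalQ →* Mat2 A), IsLift rbar 𝒟 π r →
      Function.Surjective (traceHom 𝒪 r) →
      ∀ s : Finset (A →ₐ[𝒪] DualNumber (ResidueField 𝒪)), s.card ≤ N := by
  letI := dualAlgebra 𝒪
  letI : Algebra (ResidueField 𝒪) (ResidueField (DualNumber (ResidueField 𝒪))) :=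
    ((IsLocalRing.residue (DualNumber (ResidueField 𝒪))).comp
      (algebraMap (ResidueField 𝒪) (DualNumber (ResidueField 𝒪)))).toAlgebra
  let X := {ρ : GaloisRepAdic (DualNumber (ResidueField 𝒪)) //
      𝒟 ρ ∧ ρ.residual.IsEquiv (ρbar.baseChange (ResidueField (DualNumber (ResidueField 𝒪))))}
  let st : Setoid X := ⟨fun ρ ρ' => ρ.1.IsEquiv ρ'.1, ⟨fun ρ => ⟨GaloisRepAdic.Equiv.refl ρ.1⟩,
        fun ⟨e⟩ => ⟨e.symm⟩, fun ⟨e⟩ ⟨e'⟩ => ⟨e.trans e'⟩⟩⟩
  haveI : Finite (Quotient st) := hfin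
  refine ⟨Nat.card (Quotient st), fun {A} _ _ _ _ π r h hsurj s => ?_⟩
  let πD : DualNumber (ResidueField 𝒪) →ₐ[𝒪] ResidueField 𝒪 := dualResMap 𝒪
  haveI : Finite (ResidueField 𝒪) := Finite.of_surjective π (resMap_surjective π)
  haveI : Finite (DualNumber (ResidueField 𝒪)) :=
    inferInstanceAs (Finite (ResidueField 𝒪 × ResidueField 𝒪))
  have hmap := fun ψ : A →ₐ[𝒪] DualNumber (ResidueField 𝒪) => h.map h𝒟 πD ψ
  have hres : ∀ ψ : A →ₐ[𝒪] DualNumber (ResidueField 𝒪),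
      (ofMatrix _ (hmap ψ).cts).residual.IsEquiv
        (ρbar.baseChange (ResidueField (DualNumber (ResidueField 𝒪)))) := by
    intro ψ
    refine (hasMatrix_ofMatrix _ (hmap ψ).cts).residual.isEquiv ?_
    convert hm.baseChange (k' := ResidueField (DualNumber (ResidueField 𝒪))) using 1
    refine MonoidHom.ext fun g => Matrix.ext fun i j => ?_
    set x := ψ (r g i j) with hx
    show residue _ x = residue _ (TrivSqZeroExt.inl (rbar g i j))
    have h1 : πD x = rbar g i j := by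
      rw [hx, ← h.red g]
      exact (DFunLike.congr_fun (resMap_unique π (πD.comp ψ)) (r g i j)).symm
    rw [← sub_eq_zero, ← map_sub, residue_eq_zero_iff, mem_maximal_iff_resMap πD, map_sub, h1,
      sub_eq_zero]
    rfl
  let f : (A →ₐ[𝒪] DualNumber (ResidueField 𝒪)) → Quotient st := fun ψ =>
    Quotient.mk st ⟨ofMatrix _ (hmap ψ).cts, (hmap ψ).cond, hres ψ⟩
  have hf : Function.Injective f := by
    intro ψ ψ' hψ
    have he : (ofMatrix _ (hmap ψ).cts).IsEquiv (ofMatrix _ (hmap ψ').cts) :=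
      Quotient.exact hψ
    have ht : ψ.comp (traceHom 𝒪 r) = ψ'.comp (traceHom 𝒪 r) := by
      refine MvPolynomial.algHom_ext fun g => ?_
      have h1 := ((hasMatrix_ofMatrix _ (hmap ψ).cts).of_equiv he).trace_eq g
      rw [(hasMatrix_ofMatrix _ (hmap ψ').cts).trace_eq g] at h1
      simp only [MonoidHom.comp_apply, mapHom_apply, trace_map_ringHom] at h1
      simpa [traceHom] using h1.symm
    exact AlgHom.ext fun a => by
      obtain ⟨p, rfl⟩ := hsurj a
      exact DFunLike.congr_fun ht p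
  classical
  haveI := Fintype.ofFinite (Quotient st)
  rw [Nat.card_eq_fintype_card]
  exact le_trans (le_of_eq (Finset.card_image_of_injective s hf).symm) (Finset.card_le_univ _)

end Fermat.Agent.Deform
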