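import Mathlib
import Fermat.Agent.Deform.Lifts
import Fermat.Agent.Deform.Complete

/-!
# The minimal trace ideals at each level, and the complete ring they define
-/

set_option autoImplicit false
set_option linter.style.haveILetI false

noncomputable section

open IsLocalRing

namespace Fermat.Agent.Deform

lemma le_of_le_sup_sq {A : Type} [CommRing A] {M S : Ideal A} (h : M ≤ S ⊔ M ^ 2) {n : ℕ}
    (hn : M ^ (n + 1) = ⊥) : M ≤ S := by
  have key : ∀ i, M ≤ S ⊔ M ^ (i + 1) := by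
    intro i
    induction i with
    | zero => exact le_sup_of_le_right (by rw [zero_add, pow_one])
    | succ i ih =>
      refine h.trans (sup_le le_sup_left ?_)
      rw [pow_two]
      refine (Ideal.mul_mono_right ih).trans ?_
      rw [Ideal.mul_sup, pow_succ' M (i + 1)]
      exact sup_le_sup_right Ideal.mul_le_right _
  simpa [hn] using key n

variable {𝒪 : Type} [CommRing 𝒪] [IsLocalRing 𝒪]
variable {rbar : GalQ →* Mat2 (ResidueField 𝒪)} {𝒟 : CondType 𝒪}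

local notation "PP" => MvPolynomial GalQ 𝒪
/-- The ideal of trace polynomials vanishing on `rbar`. -/
abbrev augIdeal (rbar : GalQ →* Mat2 (ResidueField 𝒪)) : Ideal PP :=
  RingHom.ker (traceHom 𝒪 rbar).toRingHom

lemma maximalIdeal_quotient {I : Ideal PP} (hI : I ≤ (augIdeal rbar)) [IsLocalRing (PP ⧸ I)]
    (π : (PP ⧸ I) →ₐ[𝒪] ResidueField 𝒪) :
    maximalIdeal (PP ⧸ I) = Ideal.map (Ideal.Quotient.mk I) (augIdeal rbar) := by
  have e : π.comp (Ideal.Quotient.mkₐ 𝒪 I) = traceHom 𝒪 rbar := by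
    rw [resMap_unique π (Ideal.Quotient.liftₐ I (traceHom 𝒪 rbar) fun a ha => hI ha)]
    exact AlgHom.ext fun a => rfl
  refine le_antisymm (fun a ha => ?_) ?_
  · obtain ⟨p, rfl⟩ := Ideal.Quotient.mk_surjective a
    refine Ideal.mem_map_of_mem _ ?_
    show traceHom 𝒪 rbar p = 0
    rw [← e]
    exact (mem_maximal_iff_resMap π).mp ha
  · rw [Ideal.map_le_iff_le_comap]
    intro p hp
    rw [Ideal.mem_comap, mem_maximal_iff_resMap π]
    exact (DFunLike.congr_fun e p).trans hp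

theorem exists_levels (h𝒟 : GaloisRep.IsDeformationCondition 𝒪 𝒟) (hnd : TraceNondeg rbar)
    [Finite (ResidueField 𝒪)] {ϖ : 𝒪} (hϖ : maximalIdeal 𝒪 = Ideal.span {ϖ})
    {ρbar : ResidualGaloisRep (ResidueField 𝒪)} (hm : RHasMatrix ρbar rbar)
    (hbar : 𝒟 (GaloisRepAdic.ofResidualGaloisRep ρbar))
    (hfin : GaloisRep.TangentFinite 𝒪 ρbar 𝒟) :
    ∃ J : ℕ → Ideal PP,
      (∀ n, IsTraceIdeal rbar 𝒟 (J n)) ∧ (∀ n, (augIdeal rbar) ^ (n + 1) ≤ J n) ∧
      (∀ n I, IsTraceIdeal rbar 𝒟 I → (augIdeal rbar) ^ (n + 1) ≤ I → J n ≤ I) ∧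
      (∀ n, J n = J (n + 1) ⊔ (augIdeal rbar) ^ (n + 1)) ∧
      ∃ (m : ℕ) (x : Fin m → PP), (∀ i, x i ∈ (augIdeal rbar)) ∧ (augIdeal rbar) ≤ Ideal.span (Set.range x) ⊔ J 1 := by
  classical
  obtain ⟨N, hN⟩ := exists_tangent_bound h𝒟 hm hfin
  have gens : ∀ I, IsTraceIdeal rbar 𝒟 I → ∀ n, (augIdeal rbar) ^ (n + 1) ≤ I →
      ∃ x : Fin (N + 1) → PP, (∀ i, x i ∈ (augIdeal rbar)) ∧ (augIdeal rbar) ≤ Ideal.span (Set.range x) ⊔ I ∧
        Nat.card (PP ⧸ I) ≤ Nat.card (Code (ResidueField 𝒪) (N + 1) (n + 1)) := by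
    intro I hI n hn
    obtain ⟨_, _, π, r, hr, htr⟩ := hI.realize h𝒟 hnd
    have hmax := maximalIdeal_quotient hI.le π
    have hnil : maximalIdeal (PP ⧸ I) ^ (n + 1) = ⊥ := by
      rw [hmax, ← Ideal.map_pow, Ideal.map_eq_bot_iff_le_ker, Ideal.mk_ker]
      exact hn
    have hsurj : Function.Surjective (traceHom 𝒪 r) := by
      rw [traceHom_eq_mkₐ htr]; exact Ideal.Quotient.mk_surjective
    obtain ⟨y, hy, hy'⟩ := exists_generators π hϖ (hN π r hr hsurj)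
    let z : Fin (N + 1) → PP ⧸ I := Fin.cons (algebraMap 𝒪 _ ϖ) y
    have hz : ∀ i, z i ∈ maximalIdeal (PP ⧸ I) := by
      intro i
      refine Fin.cases ?_ (fun j => ?_) i
      · exact algebraMap_mem_maximal π (hϖ ▸ Ideal.mem_span_singleton_self ϖ)
      · simpa [z] using hy j
    have hz' : maximalIdeal (PP ⧸ I) ≤ Ideal.span (Set.range z) := by
      refine le_of_le_sup_sq ?_ hnil
      simpa [z, Fin.range_cons] using hy'
    have hlift : ∀ i, ∃ p ∈ (augIdeal rbar), Ideal.Quotient.mk I p = z i := by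
      intro i
      have h := hz i
      rw [hmax] at h
      obtain ⟨p, hp, e⟩ :=
        (Ideal.mem_map_iff_of_surjective _ Ideal.Quotient.mk_surjective).mp h
      exact ⟨p, hp, e⟩
    choose x hx hxz using hlift
    refine ⟨x, hx, fun p hp => ?_, card_le_of_generators π z hz' hz hnil⟩
    have h1 : Ideal.Quotient.mk I p ∈ Ideal.map (Ideal.Quotient.mk I) (Ideal.span (Set.range x)) := by
      rw [Ideal.map_span, ← Set.range_comp, show Ideal.Quotient.mk I ∘ x = z from funext hxz]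
      exact hz' (hmax ▸ Ideal.mem_map_of_mem _ hp)
    have h2 : p ∈ Ideal.comap (Ideal.Quotient.mk I)
        (Ideal.map (Ideal.Quotient.mk I) (Ideal.span (Set.range x))) := h1
    rwa [Ideal.comap_map_of_surjective' _ Ideal.Quotient.mk_surjective, Ideal.mk_ker] at h2
  have least : ∀ n, ∃ Jn, IsTraceIdeal rbar 𝒟 Jn ∧ (augIdeal rbar) ^ (n + 1) ≤ Jn ∧
      ∀ I, IsTraceIdeal rbar 𝒟 I → (augIdeal rbar) ^ (n + 1) ≤ I → Jn ≤ I := by
    intro n
    let S : Set ℕ := {c | ∃ I, IsTraceIdeal rbar 𝒟 I ∧ (augIdeal rbar) ^ (n + 1) ≤ I ∧ Nat.card (PP ⧸ I) = c}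
    have hne : S.Nonempty := ⟨_, (augIdeal rbar), isTraceIdeal_ker h𝒟 hm hbar, Ideal.pow_le_self n.succ_ne_zero, rfl⟩
    have hbd : BddAbove S := ⟨Nat.card (Code (ResidueField 𝒪) (N + 1) (n + 1)), fun c hc => by
      obtain ⟨I, hI, hn, rfl⟩ := hc
      obtain ⟨x, _, _, h⟩ := gens I hI n hn
      exact h⟩
    obtain ⟨J, hJ, hJn, hJc⟩ := Nat.sSup_mem hne hbd
    refine ⟨J, hJ, hJn, fun I hI hIn => ?_⟩
    have h1 := hJ.inf h𝒟 hI
    have h2 : Nat.card (PP ⧸ J ⊓ I) ≤ Nat.card (PP ⧸ J) := by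
      rw [hJc]; exact le_csSup hbd ⟨_, h1, le_inf hJn hIn, rfl⟩
    obtain ⟨_, _, _⟩ := h1.realize h𝒟 hnd
    haveI := Fintype.ofFinite (PP ⧸ J ⊓ I)
    have hsurj := Ideal.Quotient.factor_surjective (inf_le_left : J ⊓ I ≤ J)
    have hbij := (Nat.bijective_iff_surjective_and_card _).mpr
      ⟨hsurj, le_antisymm h2 (Nat.card_le_card_of_surjective _ hsurj) ▸ rfl⟩
    intro a ha
    have : Ideal.Quotient.mk (J ⊓ I) a = 0 := hbij.1 (by
      rw [map_zero, Ideal.Quotient.factor_mk]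
      exact Ideal.Quotient.eq_zero_iff_mem.mpr ha)
    exact (Ideal.Quotient.eq_zero_iff_mem.mp this).2
  choose J hJ hJn hJle using least
  have hrec : ∀ n, J n = J (n + 1) ⊔ (augIdeal rbar) ^ (n + 1) := by
    intro n
    refine le_antisymm (hJle n _ ((hJ (n + 1)).mono h𝒟 hnd le_sup_left
      (sup_le (hJ (n + 1)).le (Ideal.pow_le_self n.succ_ne_zero))) le_sup_right)
      (sup_le (hJle (n + 1) _ (hJ n) ?_) (hJn n))
    exact (Ideal.pow_le_pow_right (by omega)).trans (hJn n)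
  obtain ⟨x, hx, hx', _⟩ := gens (J 1) (hJ 1) 1 (hJn 1)
  exact ⟨J, hJ, hJn, hJle, hrec, N + 1, x, hx, hx'⟩

end Fermat.Agent.Deform
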