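import Mathlib
import Fermat.Agent.Deform.Levels
import Fermat.Prelude.Def_GaloisRep_DeformationRingData

/-!
# Existence of the universal deformation ring
-/

set_option autoImplicit false
set_option linter.style.haveILetI false

noncomputable section

open IsLocalRing

namespace Fermat.Agent.Deform

section Limit

variable {R : Type} [CommRing R] [IsLocalRing R] [IsAdicComplete (maximalIdeal R) R]

/-- Compatible elements of the quotients glue to a unique element of a complete local ring. -/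
lemma exists_unique_lift {B : ℕ → Type} [∀ n, CommRing (B n)] (ψ : ∀ n, R →+* B n)
    (hψ : ∀ n, Function.Surjective (ψ n))
    (hker : ∀ n a, a ∈ maximalIdeal R ^ (n + 1) ↔ ψ n a = 0)
    (q : ∀ n, B (n + 1) →+* B n) (hq : ∀ n a, q n (ψ (n + 1) a) = ψ n a)
    (b : ∀ n, B n) (hb : ∀ n, q n (b (n + 1)) = b n) : ∃! a : R, ∀ n, ψ n a = b n := by
  choose f hf using fun n => hψ n (b n)
  have hstep : ∀ n, f n - f (n + 1) ∈ maximalIdeal R ^ (n + 1) := by
    intro n
    rw [hker, map_sub, ← hq n (f (n + 1)), hf, hf, hb, sub_self]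
  have hdiff : ∀ i d, f i - f (i + d) ∈ maximalIdeal R ^ (i + 1) := by
    intro i d
    induction d with
    | zero => simp
    | succ d ih =>
      rw [← sub_add_sub_cancel _ (f (i + d)) _]
      exact add_mem ih (Ideal.pow_le_pow_right (by omega) (hstep (i + d)))
  obtain ⟨L, hL⟩ := IsPrecomplete.prec (I := maximalIdeal R) (M := R) inferInstance (f := f)
    (fun {i j} hij => by
      rw [SModEq.sub_mem, smul_eq_mul, Ideal.mul_top]
      obtain ⟨d, rfl⟩ := Nat.exists_eq_add_of_le hij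
      exact Ideal.pow_le_pow_right (by omega) (hdiff i d))
  refine ⟨L, fun n => ?_, fun a ha => ?_⟩
  · have h1 := hL (n + 1)
    rw [SModEq.sub_mem, smul_eq_mul, Ideal.mul_top] at h1
    have h2 := add_mem (hstep n) h1
    rw [sub_add_sub_cancel, hker, map_sub, hf, sub_eq_zero] at h2
    exact h2.symm
  · refine IsHausdorff.eq_iff_smodEq (I := maximalIdeal R) |>.mpr fun n => ?_
    rw [SModEq.sub_mem, smul_eq_mul, Ideal.mul_top]
    rcases n with _ | n
    · simp
    · have h1 := hL (n + 1)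
      rw [SModEq.sub_mem, smul_eq_mul, Ideal.mul_top] at h1
      have h2 := add_mem (hstep n) h1
      rw [sub_add_sub_cancel, hker, map_sub, hf, sub_eq_zero] at h2
      rw [hker, map_sub, ha n, ← h2, sub_self]

omit [IsAdicComplete (maximalIdeal R) R] in
lemma eq_of_forall_level [IsHausdorff (maximalIdeal R) R] {B : ℕ → Type} [∀ n, CommRing (B n)]
    (ψ : ∀ n, R →+* B n) (hker : ∀ n a, a ∈ maximalIdeal R ^ (n + 1) ↔ ψ n a = 0)
    {a a' : R} (h : ∀ n, ψ n a = ψ n a') : a = a' := by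
  refine IsHausdorff.eq_iff_smodEq (I := maximalIdeal R) |>.mpr fun n => ?_
  rw [SModEq.sub_mem, smul_eq_mul, Ideal.mul_top]
  rcases n with _ | n
  · simp
  · rw [hker, map_sub, h, sub_self]

end Limit

variable {𝒪 : Type} [CommRing 𝒪] [IsLocalRing 𝒪]
variable {rbar : GalQ →* Mat2 (ResidueField 𝒪)} {𝒟 : CondType 𝒪}

lemma finite_quotient_maximal_pow [Finite (ResidueField 𝒪)] {A : Type} [CommRing A] [IsLocalRing A]
    [IsNoetherianRing A] [Algebra 𝒪 A] (π : A →ₐ[𝒪] ResidueField 𝒪) (n : ℕ) :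
    Finite (A ⧸ maximalIdeal A ^ n) := by
  haveI : Finite (ResidueField A) := by
    haveI := isLocalHom_algebraMap_of_resMap π
    refine Finite.of_surjective (ResidueField.map (algebraMap 𝒪 A)) fun x => ?_
    obtain ⟨a, rfl⟩ := residue_surjective x
    exact ⟨π a, (residue_eq_map_resMap π a).symm⟩
  exact IsLocalRing.finite_quotient_iff.mpr ⟨n, le_rfl⟩

/-- The reduction of a representation of type `𝒟` over a complete Noetherian ring is a lift. -/
lemma isLift_reduction [Finite (ResidueField 𝒪)] (h𝒟 : GaloisRep.IsDeformationCondition 𝒪 𝒟)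
    {A : Type} [CommRing A] [IsLocalRing A] [IsNoetherianRing A]
    [IsAdicComplete (maximalIdeal A) A] [Algebra 𝒪 A] (π : A →ₐ[𝒪] ResidueField 𝒪)
    {r : GalQ →* Mat2 A} (hred : ∀ g, (r g).map π = rbar g) (hc : MatCts r)
    (hD : 𝒟 (ofMatrix r hc)) {B : Type} [CommRing B] [IsLocalRing B] [Algebra 𝒪 B]
    [IsArtinianRing B] (πB : B →ₐ[𝒪] ResidueField 𝒪) (q : A →ₐ[𝒪] B) (hq : Function.Surjective q) :
    IsLift rbar 𝒟 πB ((mapHom (q : A →+* B)).comp r) := by
  have hl := isLocalHom_of_resMap π πB q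
  refine ⟨fun g => ?_, matCts_map _ hl hc, ?_⟩
  · rw [← hred g]
    ext i j
    exact (DFunLike.congr_fun (resMap_unique π (πB.comp q)) (r g i j)).symm
  · exact h𝒟.of_isEquiv (isArtinianTestAlgebra_of_resMap πB) (isEquiv_baseChange_ofMatrix _ hl hc)
      ((h𝒟.iff_forall_surjective (isLocalHom_algebraMap_of_resMap π)
        (residue_surjective_of_resMap π) (ofMatrix r hc)).mp hD
        (isArtinianTestAlgebra_of_resMap πB) q hl hq)

theorem exists_deformationRingData {𝒪 : Type} [CommRing 𝒪] [IsDomain 𝒪]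
    [IsDiscreteValuationRing 𝒪] [IsAdicComplete (maximalIdeal 𝒪) 𝒪] [Finite (ResidueField 𝒪)]
    (ρbar : ResidualGaloisRep (ResidueField 𝒪)) (𝒟 : CondType 𝒪)
    (habs : ρbar.IsAbsolutelyIrreducible) (h𝒟 : GaloisRep.IsDeformationCondition 𝒪 𝒟)
    (hbar : 𝒟 (GaloisRepAdic.ofResidualGaloisRep ρbar))
    (hfin : GaloisRep.TangentFinite 𝒪 ρbar 𝒟) :
    Nonempty (GaloisRep.DeformationRingData 𝒪 ρbar 𝒟) := by
  classical
  obtain ⟨rbar, hm⟩ := exists_rhasMatrix ρbar
  have hnd := hm.traceNondeg habs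
  obtain ⟨ϖ, hϖ⟩ : ∃ ϖ, maximalIdeal 𝒪 = Ideal.span {ϖ} :=
    ⟨_, (IsDiscreteValuationRing.exists_irreducible 𝒪).choose_spec.maximalIdeal_eq⟩
  obtain ⟨J, hJ, hJn, hJle, hrec, m, x, hx, hgen⟩ := exists_levels h𝒟 hnd hϖ hm hbar hfin
  obtain ⟨R, _, _, _, _, _, πR, ψ, hψs, hψk, hψc⟩ := exists_complete_of_system (traceHom 𝒪 rbar) J
    (fun n => (hJ n).le) hJn hrec x hx hgen
  choose hloc hfinite π r hr htr using fun n => (hJ n).realize h𝒟 hnd
  haveI := hloc
  haveI := hfinite
  let q : ∀ n, (MvPolynomial GalQ 𝒪 ⧸ J (n + 1)) →ₐ[𝒪] MvPolynomial GalQ 𝒪 ⧸ J n := fun n =>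
    Ideal.Quotient.factorₐ 𝒪 ((le_sup_left : J (n + 1) ≤ J (n + 1) ⊔ _).trans (hrec n).ge)
  have hqs : ∀ n, Function.Surjective (q n) := fun n => Ideal.Quotient.factor_surjective ((le_sup_left : J (n + 1) ≤ J (n + 1) ⊔ _).trans (hrec n).ge)
  have hqX : ∀ n g, q n (Ideal.Quotient.mk _ (MvPolynomial.X g)) =
      Ideal.Quotient.mk _ (MvPolynomial.X g) := fun n g => rfl
  -- a compatible system of lifts
  let T : ℕ → Type := fun n => {s : GalQ →* Mat2 (MvPolynomial GalQ 𝒪 ⧸ J n) //
    IsLift rbar 𝒟 (π n) s ∧ ∀ g, (s g).trace = Ideal.Quotient.mk (J n) (MvPolynomial.X g)}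
  have step : ∀ n (s : T n), ∃ s' : T (n + 1),
      (mapHom (q n : _ →+* MvPolynomial GalQ 𝒪 ⧸ J n)).comp s'.1 = s.1 := by
    intro n s
    have h1 := (hr (n + 1)).map h𝒟 (π n) (q n)
    have ht : ∀ g, (s.1 g).trace =
        ((mapHom (q n : _ →+* MvPolynomial GalQ 𝒪 ⧸ J n)).comp (r (n + 1)) g).trace := by
      intro g
      rw [MonoidHom.comp_apply, mapHom_apply, trace_map_ringHom, htr, s.2.2]
      rfl
    obtain ⟨U, hU, hUr⟩ := s.2.1.exists_conj hnd h1.red ht
    choose lift hlift using hqs n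
    let V : Mat2 (MvPolynomial GalQ 𝒪 ⧸ J (n + 1)) := (U : Mat2 _).map lift
    have hV : V.map (q n) = (U : Mat2 _) := Matrix.ext fun i j => hlift _
    have hVπ : V.map (π (n + 1)) = 1 := by
      refine Eq.trans ?_ hU
      refine Matrix.ext fun i j => ?_
      show π (n + 1) (lift ((U : Mat2 _) i j)) = π n ((U : Mat2 _) i j)
      conv_rhs => rw [← hlift ((U : Mat2 _) i j)]
      exact DFunLike.congr_fun (resMap_unique (π (n + 1)) ((π n).comp (q n))) _
    have hVu : IsUnit V := by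
      rw [Matrix.isUnit_iff_isUnit_det]
      refine isUnit_of_resMap_ne_zero (π (n + 1)) ?_
      rw [AlgHom.map_det]
      show (V.map (π (n + 1))).det ≠ 0
      rw [hVπ, Matrix.det_one]
      exact one_ne_zero
    obtain ⟨v, hv⟩ := hVu
    obtain ⟨r', hr', hr'', hr'tr⟩ := IsLift.exists_conj_hom (r (n + 1)) v
    refine ⟨⟨r', (hr (n + 1)).conj h𝒟 v (by rw [hv]; exact hVπ) hr',
      fun g => by rw [hr'tr, htr]⟩, MonoidHom.ext fun g => ?_⟩
    refine U.isUnit.mul_left_cancel ?_
    rw [← hUr g, ← hV, MonoidHom.comp_apply, MonoidHom.comp_apply, mapHom_apply, mapHom_apply]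
    have hVr : V * r' g = r (n + 1) g * V := by
      have h := (hr' g).symm
      rwa [hv] at h
    exact Eq.trans Matrix.map_mul.symm ((congrArg (fun M : Mat2 _ => M.map (q n)) hVr).trans
      Matrix.map_mul)
  choose next hnext using step
  let sys : ∀ n, T n := fun n => Nat.rec (motive := T) ⟨r 0, hr 0, htr 0⟩ next n
  have hsys : ∀ n, (mapHom (q n : _ →+* MvPolynomial GalQ 𝒪 ⧸ J n)).comp (sys (n + 1)).1
      = (sys n).1 := fun n => hnext n (sys n)
  -- the representation on `R`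
  have hlift := exists_unique_lift (R := R) (fun n => (ψ n : R →+* MvPolynomial GalQ 𝒪 ⧸ J n))
    hψs hψk (fun n => (q n : _ →+* _)) hψc
  choose F hF hFu using fun (g : GalQ) (i j : Fin 2) => hlift (fun n => (sys n).1 g i j)
    (fun n => congrFun (congrFun (DFunLike.congr_fun (hsys n) g) i) j)
  have hext : ∀ M N : Mat2 R, (∀ n, M.map (ψ n) = N.map (ψ n)) → M = N := fun M N h =>
    Matrix.ext fun i j => eq_of_forall_level (fun n => (ψ n : R →+* MvPolynomial GalQ 𝒪 ⧸ J n)) hψk
      fun n => congrFun (congrFun (h n) i) j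
  have hFn : ∀ n g, (Matrix.of (F g)).map (ψ n) = (sys n).1 g :=
    fun n g => Matrix.ext fun i j => hF g i j n
  let rR : GalQ →* Mat2 R :=
    { toFun := fun g => Matrix.of (F g)
      map_one' := hext _ _ fun n => by
        rw [hFn, map_one, Matrix.map_one _ (map_zero _) (map_one _)]
      map_mul' := fun a b => hext _ _ fun n => by
        rw [Matrix.map_mul, hFn, hFn, hFn, map_mul] }
  have hRn : ∀ n, (mapHom (ψ n : R →+* _)).comp rR = (sys n).1 := fun n =>
    MonoidHom.ext fun g => hFn n g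
  have hcts : MatCts rR := by
    intro n
    obtain ⟨L, hL, hr1⟩ := (sys n).2.1.exists_eq_one
    refine ⟨L, hL, fun σ hσ i j => Ideal.pow_le_pow_right n.le_succ ((hψk n _).mpr ?_)⟩
    have h1 : (rR σ).map (ψ n) = 1 := (hFn n σ).trans (hr1 σ hσ)
    have h2 : (rR σ - 1).map (ψ n) = 0 := by
      rw [Matrix.map_sub _ (map_sub (ψ n)), h1, Matrix.map_one _ (map_zero _) (map_one _), sub_self]
    exact congrFun (congrFun h2 i) j
  have hR1 : IsLocalHom (algebraMap 𝒪 R) := isLocalHom_algebraMap_of_resMap πR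
  have hR2 := residue_surjective_of_resMap πR
  have hredR : ∀ g, (rR g).map πR = rbar g := by
    intro g
    rw [← (sys 0).2.1.red g, ← hFn 0 g, Matrix.map_map]
    refine congrArg (rR g).map (funext fun a => ?_)
    exact DFunLike.congr_fun (resMap_unique πR ((π 0).comp (ψ 0))) a
  have hDR : 𝒟 (ofMatrix rR hcts) := by
    refine (h𝒟.iff_forall_surjective hR1 hR2 _).mpr fun B _ _ _ hB f hf hfs => ?_
    haveI := hB.isArtinian
    obtain ⟨πB⟩ := exists_resMap hB.isLocalHom hB.residue_surjective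
    obtain ⟨n, hn⟩ := exists_maximal_pow_eq_bot (A := B)
    have hkill : ∀ a, ψ n a = 0 → f a = 0 := by
      intro a ha
      have h1 := Ideal.mem_map_of_mem (f : R →+* B) ((hψk n a).mpr ha)
      rw [Ideal.map_pow] at h1
      have hle : (maximalIdeal R).map (f : R →+* B) ≤ maximalIdeal B :=
        Ideal.map_le_iff_le_comap.mpr fun b hb => map_nonunit _ b hb
      have h2 := Ideal.pow_right_mono hle (n + 1) h1
      rwa [hn, Ideal.mem_bot] at h2
    let f' : (MvPolynomial GalQ 𝒪 ⧸ J n) →ₐ[𝒪] B :=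
      (Ideal.Quotient.liftₐ (RingHom.ker (ψ n).toRingHom) f hkill).comp
        (Ideal.quotientKerAlgEquivOfSurjective (hψs n)).symm.toAlgHom
    have hf' : f'.comp (ψ n) = f := AlgHom.ext fun a => by
      show Ideal.Quotient.liftₐ _ f hkill
        ((Ideal.quotientKerAlgEquivOfSurjective (hψs n)).symm (ψ n a)) = f a
      rw [show ψ n a = Ideal.quotientKerAlgEquivOfSurjective (hψs n) (Ideal.Quotient.mk _ a) from rfl,
        AlgEquiv.symm_apply_apply]
      rfl
    have hlift' := (sys n).2.1.map h𝒟 πB f'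
    refine h𝒟.of_isEquiv hB ?_ hlift'.cond
    refine (hasMatrix_ofMatrix _ hlift'.cts).isEquiv ?_
    have e : (mapHom (f' : _ →+* B)).comp (sys n).1 = (mapHom (f : R →+* B)).comp rR := by
      rw [← hRn n, ← hf']
      rfl
    rw [e]
    exact (hasMatrix_ofMatrix rR hcts).baseChangeAlong _ hf
  have hres : (ofMatrix rR hcts).residual.IsEquiv
      (ρbar.baseChangeAlong (ResidueField.map (algebraMap 𝒪 R))) := by
    refine (hasMatrix_ofMatrix rR hcts).residual.isEquiv ?_
    convert hm.baseChangeAlong (ResidueField.map (algebraMap 𝒪 R)) using 1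
    refine MonoidHom.ext fun g => Matrix.ext fun i j => ?_
    show residue R (rR g i j) = ResidueField.map (algebraMap 𝒪 R) (rbar g i j)
    rw [residue_eq_map_resMap πR]
    exact congrArg (fun M : Mat2 (ResidueField 𝒪) => ResidueField.map (algebraMap 𝒪 R) (M i j))
      (hredR g)
  refine ⟨{ R := R, residue_surjective := hR2, absIrr := habs, ρ := ofMatrix rR hcts
            isOfType := hDR, residual_isEquiv := hres, universal := ?_ }⟩
  intro A _ _ _ _ _ _ hsurj ρA hDA heA
  obtain ⟨πA⟩ := exists_resMap (𝒪 := 𝒪) inferInstance hsurj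
  obtain ⟨rA, hrA, hrAred⟩ := exists_hasMatrix_lifting ρA (hm.baseChangeAlong _) heA
  have hAred : ∀ g, (rA g).map πA = rbar g := fun g => Matrix.ext fun i j => by
    have h1 : residue A (rA g i j) = ResidueField.map (algebraMap 𝒪 A) (rbar g i j) :=
      congrFun (congrFun (hrAred g) i) j
    rw [residue_eq_map_resMap πA] at h1
    exact (ResidueField.map (algebraMap 𝒪 A)).injective h1
  have hAD : 𝒟 (ofMatrix rA hrA.matCts) := by
    refine (h𝒟.iff_forall_surjective inferInstance hsurj _).mpr fun B _ _ _ hB f hf hfs => ?_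
    refine h𝒟.of_isEquiv hB ?_
      ((h𝒟.iff_forall_surjective inferInstance hsurj ρA).mp hDA hB f hf hfs)
    exact (hrA.baseChangeAlong _ hf).isEquiv
      ((hasMatrix_ofMatrix rA hrA.matCts).baseChangeAlong _ hf)
  -- factorisations through the levels
  have hfac : ∀ n, ∃ f : R →ₐ[𝒪] A ⧸ maximalIdeal A ^ (n + 1),
      ∀ a p, ψ n a = Ideal.Quotient.mk (J n) p →
        f a = Ideal.Quotient.mk _ (traceHom 𝒪 rA p) := by
    intro n
    haveI := finite_quotient_maximal_pow πA (n + 1)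
    haveI : Nontrivial (A ⧸ maximalIdeal A ^ (n + 1)) := Ideal.Quotient.nontrivial_iff.mpr
      fun h => (maximalIdeal.isMaximal A).ne_top
        (top_le_iff.mp (h ▸ Ideal.pow_le_self n.succ_ne_zero))
    haveI : IsLocalRing (A ⧸ maximalIdeal A ^ (n + 1)) :=
      IsLocalRing.of_surjective' (Ideal.Quotient.mk _) Ideal.Quotient.mk_surjective
    let πn : (A ⧸ maximalIdeal A ^ (n + 1)) →ₐ[𝒪] ResidueField 𝒪 :=
      Ideal.Quotient.liftₐ _ πA fun a ha =>
        (mem_maximal_iff_resMap πA).mp (Ideal.pow_le_self n.succ_ne_zero ha)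
    have h1 := isLift_reduction h𝒟 πA hAred hrA.matCts hAD πn
      (Ideal.Quotient.mkₐ 𝒪 (maximalIdeal A ^ (n + 1))) Ideal.Quotient.mk_surjective
    have hth : traceHom 𝒪 ((mapHom (Ideal.Quotient.mkₐ 𝒪 (maximalIdeal A ^ (n + 1)) :
        A →+* A ⧸ maximalIdeal A ^ (n + 1))).comp rA) = (Ideal.Quotient.mkₐ 𝒪 _).comp (traceHom 𝒪 rA) :=
      MvPolynomial.algHom_ext fun g => by
        simp only [traceHom, MvPolynomial.aeval_X, AlgHom.comp_apply, MonoidHom.comp_apply,
          mapHom_apply, trace_map_ringHom]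
        rfl
    have hπA : πA.comp (traceHom 𝒪 rA) = traceHom 𝒪 rbar :=
      MvPolynomial.algHom_ext fun g => by
        simp only [traceHom, MvPolynomial.aeval_X, AlgHom.comp_apply, ← hAred g]
        exact (trace_map_ringHom (πA : A →+* ResidueField 𝒪) (rA g)).symm
    have hI : J n ≤ RingHom.ker ((Ideal.Quotient.mkₐ 𝒪 (maximalIdeal A ^ (n + 1))).comp
        (traceHom 𝒪 rA)).toRingHom := by
      refine hJle n _ (hth ▸ h1.isTraceIdeal) ?_
      intro p hp
      have hle : Ideal.map (traceHom 𝒪 rA) (augIdeal rbar) ≤ maximalIdeal A := by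
        rw [Ideal.map_le_iff_le_comap]
        intro a ha
        rw [Ideal.mem_comap, mem_maximal_iff_resMap πA]
        exact (DFunLike.congr_fun hπA a).trans ha
      have h2 := Ideal.mem_map_of_mem (traceHom 𝒪 rA) hp
      rw [Ideal.map_pow] at h2
      exact Ideal.Quotient.eq_zero_iff_mem.mpr (Ideal.pow_right_mono hle (n + 1) h2)
    refine ⟨(Ideal.Quotient.liftₐ (J n) _ fun a ha => hI ha).comp (ψ n), fun a p hp => ?_⟩
    rw [AlgHom.comp_apply, hp]
    rfl
  choose f hf using hfac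
  let fam : ∀ n, R →ₐ[𝒪] A ⧸ maximalIdeal A ^ n := fun n =>
    (Ideal.Quotient.factorₐ 𝒪 (Ideal.pow_le_pow_right n.le_succ)).comp (f n)
  have hfcompat : ∀ {i j : ℕ} (h : i ≤ j) a,
      Ideal.Quotient.factor (Ideal.pow_le_pow_right (I := maximalIdeal A) (Nat.succ_le_succ h))
        (f j a) = f i a := by
    intro i j h a
    obtain ⟨d, rfl⟩ := Nat.exists_eq_add_of_le h
    induction d with
    | zero => simp
    | succ d ih =>
      rw [← ih (Nat.le_add_right i d)]
      obtain ⟨p, hp⟩ := Ideal.Quotient.mk_surjective (ψ (i + d + 1) a)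
      have hp' : ψ (i + d) a = Ideal.Quotient.mk (J (i + d)) p := by
        rw [← hψc (i + d) a, ← hp]; rfl
      rw [hf (i + d) a p hp', hf (i + (d + 1)) a p hp.symm]
      rfl
  let φ : R →ₐ[𝒪] A := IsAdicComplete.liftAlgHom (maximalIdeal A) fam fun {i j} h => by
    refine AlgHom.ext fun a => ?_
    obtain ⟨b, hb⟩ := Ideal.Quotient.mk_surjective (f j a)
    simp only [fam, AlgHom.comp_apply, Ideal.Quotient.factorₐ_apply]
    rw [← hfcompat h a, ← hb]
    rfl
  have hφl : IsLocalHom (φ : R →+* A) := isLocalHom_of_resMap πR πA φ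
  have hφf : ∀ n a, Ideal.Quotient.mk (maximalIdeal A ^ n) (φ a) =
      Ideal.Quotient.factor (Ideal.pow_le_pow_right n.le_succ) (f n a) :=
    fun n a => IsAdicComplete.mk_liftAlgHom _ _ _ n a
  have hψt : ∀ n g, ψ n (rR g).trace = Ideal.Quotient.mk (J n) (MvPolynomial.X g) := by
    intro n g
    rw [← (sys n).2.2 g, ← hFn n g]
    exact (trace_map_ringHom (ψ n : R →+* MvPolynomial GalQ 𝒪 ⧸ J n) (rR g)).symm
  have hφt : ∀ g, φ (rR g).trace = (rA g).trace := by
    intro g
    refine IsHausdorff.eq_iff_smodEq (I := maximalIdeal A) |>.mpr fun n => ?_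
    rw [SModEq.sub_mem, smul_eq_mul, Ideal.mul_top, ← Ideal.Quotient.eq, hφf,
      hf n _ _ (hψt n g), Ideal.Quotient.factor_mk]
    simp [traceHom]
  refine ⟨φ, ⟨hφl, ?_⟩, ?_⟩
  · have hred' : ∀ g, (((mapHom (φ : R →+* A)).comp rR) g).map πA = rbar g := fun g => by
      rw [← hredR g]
      exact Matrix.ext fun i j =>
        (DFunLike.congr_fun (resMap_unique πR (πA.comp φ)) (rR g i j)).symm
    obtain ⟨U, _, hU⟩ := exists_conj_of_trace_eq hnd (π := (πA : A →+* ResidueField 𝒪))
      (fun _ ha => isUnit_of_resMap_ne_zero πA ha) hred' hAred (fun g => by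
        rw [MonoidHom.comp_apply, mapHom_apply, trace_map_ringHom]; exact hφt g)
    exact ((hasMatrix_ofMatrix rR hcts).baseChangeAlong _ hφl).isEquiv (hrA.conj U hU)
  · rintro φ' ⟨hφ'l, he⟩
    have ht : ∀ g, φ' (rR g).trace = (rA g).trace := by
      intro g
      have h1 := (((hasMatrix_ofMatrix rR hcts).baseChangeAlong _ hφ'l).of_equiv he).trace_eq g
      rw [hrA.trace_eq g, MonoidHom.comp_apply, mapHom_apply, trace_map_ringHom] at h1
      exact h1.symm
    have key : ∀ (χ : R →ₐ[𝒪] A), (∀ g, χ (rR g).trace = (rA g).trace) → ∀ n a p,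
        ψ n a = Ideal.Quotient.mk (J n) p →
        Ideal.Quotient.mk (maximalIdeal A ^ (n + 1)) (χ a) =
          Ideal.Quotient.mk _ (traceHom 𝒪 rA p) := by
      intro χ hχ n a p hp
      have hχl := isLocalHom_of_resMap πR πA χ
      have h1 : χ.comp (traceHom 𝒪 rR) = traceHom 𝒪 rA :=
        MvPolynomial.algHom_ext fun g => by simp [traceHom, hχ g]
      have h2 : (ψ n).comp (traceHom 𝒪 rR) = Ideal.Quotient.mkₐ 𝒪 (J n) :=
        MvPolynomial.algHom_ext fun g => by simp [traceHom, hψt n g]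
      have h3 : a - traceHom 𝒪 rR p ∈ maximalIdeal R ^ (n + 1) := by
        rw [hψk, map_sub, hp, sub_eq_zero]
        exact (DFunLike.congr_fun h2 p).symm
      have h4 := Ideal.mem_map_of_mem (χ : R →+* A) h3
      rw [Ideal.map_pow] at h4
      have hle : (maximalIdeal R).map (χ : R →+* A) ≤ maximalIdeal A :=
        Ideal.map_le_iff_le_comap.mpr fun b hb => map_nonunit _ b hb
      rw [Ideal.Quotient.eq, ← h1, AlgHom.comp_apply, ← map_sub]
      exact Ideal.pow_right_mono hle (n + 1) h4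
    refine AlgHom.ext fun a => ?_
    refine IsHausdorff.eq_iff_smodEq (I := maximalIdeal A) |>.mpr fun n => ?_
    rw [SModEq.sub_mem, smul_eq_mul, Ideal.mul_top]
    refine Ideal.pow_le_pow_right n.le_succ ?_
    obtain ⟨p, hp⟩ := Ideal.Quotient.mk_surjective (ψ n a)
    rw [← Ideal.Quotient.eq, key φ' ht n a p hp.symm, key φ hφt n a p hp.symm]

end Fermat.Agent.Deform
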